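/-
S25, block DEGREE, leaf D2 (helper310): invariance of `Ȟ⁰`, `Ȟ¹`, `euler` and `degree` of gluing
data under isomorphism and under base change.

* `BCMaps.H1Equiv` : `A' ⊗[A] Ȟ¹(G) ≃ Ȟ¹(G')` for every base change `G'` of `G` (any `A → A'`);
* `BCMaps.H0Equiv` : `A' ⊗[A] Ȟ⁰(G) ≃ Ȟ⁰(G')` for flat `A → A'`;
* `euler_eq_of_isBC`, `degree_eq_of_isBC` : field extensions `K → K'` do not change `χ`, `deg`;
* `euler_eq_of_isIso`, `degree_eq_of_isIso`.
-/
import Fermat.Agent.S25.H310.GDBaseChange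

set_option autoImplicit false

namespace Fermat.Agent.S25.H310

open TensorProduct Fermat.Agent.S25

universe u

section Iso

variable {A R₀ R₁ R₀₁ : Type u} [CommRing A] [CommRing R₀] [CommRing R₁]
    [CommRing R₀₁] [Algebra A R₀] [Algebra A R₁] [Algebra A R₀₁] [Algebra R₀ R₀₁]
    [Algebra R₁ R₀₁] [IsScalarTower A R₀ R₀₁] [IsScalarTower A R₁ R₀₁]
    {G G' : GlueDatum A R₀ R₁ R₀₁}

/-- The `A`-linear equivalence `N₀ × N₁ ≃ N₀' × N₁'` of an isomorphism of gluing data. -/
noncomputable def isoProdEquiv (e : GlueDatum.Iso G G') : (G.N₀ × G.N₁) ≃ₗ[A] (G'.N₀ × G'.N₁) :=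
  (e.e₀.restrictScalars A).prodCongr (e.e₁.restrictScalars A)

theorem cech_isoProdEquiv (e : GlueDatum.Iso G G') (p : G.N₀ × G.N₁) :
    G'.cech (isoProdEquiv e p) = e.e₀₁ (G.cech p) := by
  simp [isoProdEquiv, GlueDatum.cech, e.comm₀, e.comm₁]

/-- `Ȟ⁰` of isomorphic gluing data. -/
noncomputable def isoH0Equiv (e : GlueDatum.Iso G G') : G.H0 ≃ₗ[A] G'.H0 :=
  LinearEquiv.ofSubmodules (isoProdEquiv e) G.H0 G'.H0 (by
    ext x
    simp only [Submodule.mem_map, LinearMap.mem_ker, LinearEquiv.coe_coe]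
    constructor
    · rintro ⟨p, hp, rfl⟩
      rw [cech_isoProdEquiv, hp, map_zero]
    · intro hx
      refine ⟨(isoProdEquiv e).symm x, ?_, by simp⟩
      apply e.e₀₁.injective
      rw [← cech_isoProdEquiv, LinearEquiv.apply_symm_apply, hx, map_zero])

/-- `Ȟ¹` of isomorphic gluing data. -/
noncomputable def isoH1Equiv (e : GlueDatum.Iso G G') : G.H1 ≃ₗ[A] G'.H1 :=
  Submodule.Quotient.equiv (LinearMap.range G.cech) (LinearMap.range G'.cech)
    (e.e₀₁.restrictScalars A) (by
      ext x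
      simp only [Submodule.mem_map, LinearMap.mem_range, LinearEquiv.coe_coe,
        LinearEquiv.restrictScalars_apply]
      constructor
      · rintro ⟨_, ⟨p, rfl⟩, rfl⟩
        exact ⟨isoProdEquiv e p, cech_isoProdEquiv e p⟩
      · rintro ⟨p, rfl⟩
        refine ⟨G.cech ((isoProdEquiv e).symm p), ⟨_, rfl⟩, ?_⟩
        rw [← cech_isoProdEquiv, LinearEquiv.apply_symm_apply])

end Iso

section IsoField

variable {K R₀ R₁ R₀₁ : Type u} [Field K] [CommRing R₀] [CommRing R₁]
    [CommRing R₀₁] [Algebra K R₀] [Algebra K R₁] [Algebra K R₀₁] [Algebra R₀ R₀₁]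
    [Algebra R₁ R₀₁] [IsScalarTower K R₀ R₀₁] [IsScalarTower K R₁ R₀₁]
    {G G' : GlueDatum K R₀ R₁ R₀₁}

theorem finrank_H0_eq_of_isIso (h : G.IsIso G') :
    Module.finrank K G.H0 = Module.finrank K G'.H0 := by
  obtain ⟨e⟩ := h
  exact (isoH0Equiv e).finrank_eq

theorem finrank_H1_eq_of_isIso (h : G.IsIso G') :
    Module.finrank K G.H1 = Module.finrank K G'.H1 := by
  obtain ⟨e⟩ := h
  exact (isoH1Equiv e).finrank_eq

/-- The Euler characteristic is invariant under isomorphism. -/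
theorem euler_eq_of_isIso (h : G.IsIso G') : G.euler = G'.euler := by
  unfold GlueDatum.euler
  rw [finrank_H0_eq_of_isIso h, finrank_H1_eq_of_isIso h]

/-- The degree is invariant under isomorphism. -/
theorem degree_eq_of_isIso (h : G.IsIso G') : G.degree = G'.degree := by
  unfold GlueDatum.degree
  rw [euler_eq_of_isIso h]

end IsoField

section BC

variable {k : Type u} [Field k] {B₀ B₁ B₀₁ : Type u} [CommRing B₀] [CommRing B₁] [CommRing B₀₁]
  [Algebra k B₀] [Algebra k B₁] [Algebra k B₀₁] [Algebra B₀ B₀₁] [Algebra B₁ B₀₁]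
  [IsScalarTower k B₀ B₀₁] [IsScalarTower k B₁ B₀₁]
  {A A' : Type u} [CommRing A] [Algebra k A] [CommRing A'] [Algebra k A'] [Algebra A A']
  [IsScalarTower k A A']
  {G : CurveGD k B₀ B₁ B₀₁ A} {G' : CurveGD k B₀ B₁ B₀₁ A'}

namespace BCMaps

variable (bm : BCMaps G G')

theorem map_range_cech_baseChange :
    (LinearMap.range (G.cech.baseChange A')).map (bm.equiv₀₁ : _ →ₗ[A'] _) =
      LinearMap.range G'.cech := by
  ext x
  simp only [Submodule.mem_map, LinearMap.mem_range, LinearEquiv.coe_coe]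
  constructor
  · rintro ⟨_, ⟨z, rfl⟩, rfl⟩
    exact ⟨bm.equivProd z, bm.cech_equivProd z⟩
  · rintro ⟨p, rfl⟩
    refine ⟨G.cech.baseChange A' (bm.equivProd.symm p), ⟨_, rfl⟩, ?_⟩
    rw [← bm.cech_equivProd, LinearEquiv.apply_symm_apply]

theorem map_ker_cech_baseChange :
    (LinearMap.ker (G.cech.baseChange A')).map (bm.equivProd : _ →ₗ[A'] _) =
      LinearMap.ker G'.cech := by
  ext x
  simp only [Submodule.mem_map, LinearMap.mem_ker, LinearEquiv.coe_coe]
  constructor
  · rintro ⟨z, hz, rfl⟩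
    rw [bm.cech_equivProd, hz, map_zero]
  · intro hx
    refine ⟨bm.equivProd.symm x, ?_, by simp⟩
    apply bm.equiv₀₁.injective
    rw [← bm.cech_equivProd, LinearEquiv.apply_symm_apply, hx, map_zero]

/-- `Ȟ¹` of a base change, as the cokernel of the base-changed differential. -/
noncomputable def cokerEquiv :
    ((A' ⊗[A] G.N₀₁) ⧸ LinearMap.range (G.cech.baseChange A')) ≃ₗ[A'] G'.H1 :=
  Submodule.Quotient.equiv _ _ bm.equiv₀₁ bm.map_range_cech_baseChange

/-- `Ȟ⁰` of a base change, as the kernel of the base-changed differential. -/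
noncomputable def kerEquiv : LinearMap.ker (G.cech.baseChange A') ≃ₗ[A'] G'.H0 :=
  LinearEquiv.ofSubmodules bm.equivProd _ _ bm.map_ker_cech_baseChange

/-- **`Ȟ¹` commutes with every base change.** -/
noncomputable def H1Equiv : A' ⊗[A] G.H1 ≃ₗ[A'] G'.H1 :=
  (cokerBaseChangeEquiv A' G.cech).symm ≪≫ₗ bm.cokerEquiv

/-- **`Ȟ⁰` commutes with flat base change.** -/
noncomputable def H0Equiv [Module.Flat A A'] : A' ⊗[A] G.H0 ≃ₗ[A'] G'.H0 :=
  LinearMap.tensorKerEquiv A' A' G.cech ≪≫ₗ bm.kerEquiv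

include bm in
/-- If `Ȟ¹(G) = 0` then `Ȟ¹(G') = 0` for every base change `G'` of `G`. -/
theorem cech_surjective (h : Function.Surjective G.cech) : Function.Surjective G'.cech := by
  intro x
  have hs : Function.Surjective (G.cech.baseChange A') :=
    LinearMap.lTensor_surjective A' h
  obtain ⟨z, hz⟩ := hs (bm.equiv₀₁.symm x)
  exact ⟨bm.equivProd z, by rw [bm.cech_equivProd, hz, LinearEquiv.apply_symm_apply]⟩

end BCMaps

/-- The ring map `A ⊗[k] B → A' ⊗[k] B` as a semilinear map. -/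
noncomputable def tensorLeftSemilinear (B : Type u) [CommRing B] [Algebra k B] :
    (A ⊗[k] B) →ₛₗ[tensorLeftHom k A A' B] (A' ⊗[k] B) where
  toFun := tensorLeftHom k A A' B
  map_add' := map_add _
  map_smul' := fun r x => by
    rw [smul_eq_mul, map_mul, smul_eq_mul]

@[simp] theorem tensorLeftSemilinear_apply (B : Type u) [CommRing B] [Algebra k B]
    (x : A ⊗[k] B) :
    tensorLeftSemilinear (k := k) (A := A) (A' := A') B x = tensorLeftHom k A A' B x := rfl

theorem isSemilinearBaseChange_tensorLeftSemilinear (B : Type u) [CommRing B] [Algebra k B] :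
    IsSemilinearBaseChange (tensorLeftHom k A A' B)
      (tensorLeftSemilinear (k := k) (A := A) (A' := A') B) := by
  unfold IsSemilinearBaseChange
  let : Algebra (A ⊗[k] B) (A' ⊗[k] B) := (tensorLeftHom k A A' B).toAlgebra
  exact IsBaseChange.linearMap (A ⊗[k] B) (A' ⊗[k] B)

theorem tensorLeftHom_tensorMapRight (B B' : Type u) [CommRing B] [Algebra k B] [CommRing B']
    [Algebra k B'] [Algebra B B'] [IsScalarTower k B B'] (s : A ⊗[k] B) :
    tensorLeftHom k A A' B' (tensorMapRight k A B B' s) =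
      tensorMapRight k A' B B' (tensorLeftHom k A A' B s) := by
  induction s using TensorProduct.induction_on with
  | zero => simp
  | tmul a b => rfl
  | add x y hx hy => simp only [map_add, hx, hy]

/-- The unit gluing datum over `A'` is the base change of the unit gluing datum over `A`. -/
noncomputable def unitBCMaps :
    BCMaps (k := k) (A := A) (A' := A')
      (GlueDatum.unit A (A ⊗[k] B₀) (A ⊗[k] B₁) (A ⊗[k] B₀₁))
      (GlueDatum.unit A' (A' ⊗[k] B₀) (A' ⊗[k] B₁) (A' ⊗[k] B₀₁)) where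
  b₀ := tensorLeftSemilinear B₀
  b₁ := tensorLeftSemilinear B₁
  b₀₁ := tensorLeftSemilinear B₀₁
  comm₀ := fun s => tensorLeftHom_tensorMapRight B₀ B₀₁ s
  comm₁ := fun s => tensorLeftHom_tensorMapRight B₁ B₀₁ s
  isBaseChange₀ := isSemilinearBaseChange_tensorLeftSemilinear B₀
  isBaseChange₁ := isSemilinearBaseChange_tensorLeftSemilinear B₁
  isBaseChange₀₁ := isSemilinearBaseChange_tensorLeftSemilinear B₀₁

end BC

section FieldExt

variable {k : Type u} [Field k] {B₀ B₁ B₀₁ : Type u} [CommRing B₀] [CommRing B₁] [CommRing B₀₁]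
  [Algebra k B₀] [Algebra k B₁] [Algebra k B₀₁] [Algebra B₀ B₀₁] [Algebra B₁ B₀₁]
  [IsScalarTower k B₀ B₀₁] [IsScalarTower k B₁ B₀₁]
  {K K' : Type u} [Field K] [Algebra k K] [Field K'] [Algebra k K']

section Inst

variable [Algebra K K'] [IsScalarTower k K K']
  {G : CurveGD k B₀ B₁ B₀₁ K} {G' : CurveGD k B₀ B₁ B₀₁ K'}

theorem BCMaps.finrank_H0_eq (bm : BCMaps G G') :
    Module.finrank K' G'.H0 = Module.finrank K G.H0 := by
  rw [← bm.H0Equiv.finrank_eq, Module.finrank_baseChange]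

theorem BCMaps.finrank_H1_eq (bm : BCMaps G G') :
    Module.finrank K' G'.H1 = Module.finrank K G.H1 := by
  rw [← bm.H1Equiv.finrank_eq, Module.finrank_baseChange]

theorem BCMaps.euler_eq (bm : BCMaps G G') : G'.euler = G.euler := by
  unfold GlueDatum.euler
  rw [bm.finrank_H0_eq, bm.finrank_H1_eq]

theorem BCMaps.degree_eq (bm : BCMaps G G') : G'.degree = G.degree := by
  unfold GlueDatum.degree
  rw [bm.euler_eq, (unitBCMaps (k := k) (A := K) (A' := K') (B₀ := B₀) (B₁ := B₁)
    (B₀₁ := B₀₁)).euler_eq]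

end Inst

variable {G : CurveGD k B₀ B₁ B₀₁ K} {G' : CurveGD k B₀ B₁ B₀₁ K'}

/-- **D2.** The Euler characteristic of a gluing datum over a field is invariant under extension
of the base field. -/
theorem euler_eq_of_isBC (φ : K →ₐ[k] K') (h : CurveGD.IsBC φ G G') : G'.euler = G.euler := by
  let : Algebra K K' := φ.toRingHom.toAlgebra
  have : IsScalarTower k K K' := IsScalarTower.of_algebraMap_eq' φ.comp_algebraMap.symm
  have hφ : IsScalarTower.toAlgHom k K K' = φ := AlgHom.ext fun _ => rfl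
  rw [← hφ] at h
  obtain ⟨bm⟩ := h
  exact BCMaps.euler_eq bm

/-- **D2.** The degree of a gluing datum over a field is invariant under extension of the base
field. -/
theorem degree_eq_of_isBC (φ : K →ₐ[k] K') (h : CurveGD.IsBC φ G G') :
    G'.degree = G.degree := by
  let : Algebra K K' := φ.toRingHom.toAlgebra
  have : IsScalarTower k K K' := IsScalarTower.of_algebraMap_eq' φ.comp_algebraMap.symm
  have hφ : IsScalarTower.toAlgHom k K K' = φ := AlgHom.ext fun _ => rfl
  rw [← hφ] at h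
  obtain ⟨bm⟩ := h
  exact BCMaps.degree_eq bm

end FieldExt

end Fermat.Agent.S25.H310
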