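/-
S25, block CECH, leaf K5 (helper310), part 1: extension of compatible families along the
localisation `r0 : N0 → N01`, and the `A`-linear retraction of `r0`.

`N01` is the localisation of `N0` away from `x` (`r0` injective, `T` invertible, `loc0`), i.e. the
colimit of `N0 →[X0] N0 →[X0] ⋯`.  Hence a family `g k : N0 →ₗ[A] P` with
`g (k + 1) ∘ X0 = g k` glues to a unique `A`-linear `G : N01 → P` with `G z = g k n` whenever
`T ^ k z = r0 n` (`exists_locExt`).  Applied to `g k = π ∘ divX ^ k ∘ ι` it yields an `A`-linear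
retraction of `r0` (`exists_retraction_r0`): `r0` is a split injection of `A`-modules, so it stays
injective after every base change.
-/
import Fermat.Agent.S25.H10.CechDefs

set_option autoImplicit false

namespace Fermat.Agent.S25.H310

open Polynomial TensorProduct Fermat.Agent.S25.H10

universe u v w

variable {A : Type u} [CommRing A] {N0 N1 N01 : Type v}
  [AddCommGroup N0] [AddCommGroup N1] [AddCommGroup N01]
  [Module A N0] [Module A N1] [Module A N01]

section LocExt

variable {P : Type w} [AddCommGroup P] [Module A P]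

/-- A compatible family is constant along `X0`-shifts. -/
theorem locFamily_add_pow (D : CechOps A N0 N1 N01) (g : ℕ → N0 →ₗ[A] P)
    (hg : ∀ k n, g (k + 1) (D.X0 n) = g k n) (k j : ℕ) (n : N0) :
    g (k + j) ((D.X0 ^ j) n) = g k n := by
  induction j generalizing n with
  | zero => simp
  | succ j ih =>
    rw [pow_succ', Module.End.mul_apply, ← add_assoc, hg, ih]

/-- Two presentations of the same element of `N01` give the same value of a compatible family. -/
theorem locFamily_eq (D : CechOps A N0 N1 N01) (hr0 : Function.Injective D.r0)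
    (g : ℕ → N0 →ₗ[A] P) (hg : ∀ k n, g (k + 1) (D.X0 n) = g k n)
    (z : N01) (k k' : ℕ) (n n' : N0) (h : (D.T ^ k) z = D.r0 n) (h' : (D.T ^ k') z = D.r0 n') :
    g k n = g k' n' := by
  have h1 : (D.X0 ^ k') n = (D.X0 ^ k) n' := by
    apply hr0
    rw [D.r0_X0_pow, D.r0_X0_pow, ← h, ← h', ← Module.End.mul_apply, ← Module.End.mul_apply,
      ← pow_add, ← pow_add, add_comm]
  calc g k n = g (k + k') ((D.X0 ^ k') n) := (locFamily_add_pow D g hg k k' n).symm
    _ = g (k' + k) ((D.X0 ^ k) n') := by rw [h1, add_comm]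
    _ = g k' n' := locFamily_add_pow D g hg k' k n'

/-- **Extension along the localisation.**  A family `g k : N0 →ₗ[A] P` compatible with `X0`
extends uniquely to `N01`. -/
theorem exists_locExt (D : CechOps A N0 N1 N01) (hr0 : Function.Injective D.r0)
    (g : ℕ → N0 →ₗ[A] P) (hg : ∀ k n, g (k + 1) (D.X0 n) = g k n) :
    ∃ G : N01 →ₗ[A] P, ∀ (z : N01) (k : ℕ) (n : N0), (D.T ^ k) z = D.r0 n → G z = g k n := by
  classical
  choose kz nz hz using D.loc0
  have key : ∀ (z : N01) (k : ℕ) (n : N0), (D.T ^ k) z = D.r0 n → g (kz z) (nz z) = g k n :=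
    fun z k n h => locFamily_eq D hr0 g hg z (kz z) k (nz z) n (hz z) h
  refine ⟨{ toFun := fun z => g (kz z) (nz z), map_add' := ?_, map_smul' := ?_ }, key⟩
  · intro z1 z2
    have h12 : (D.T ^ (kz z1 + kz z2)) (z1 + z2) =
        D.r0 ((D.X0 ^ kz z2) (nz z1) + (D.X0 ^ kz z1) (nz z2)) := by
      rw [map_add, map_add, D.r0_X0_pow, D.r0_X0_pow, ← hz z1, ← hz z2,
        ← Module.End.mul_apply, ← Module.End.mul_apply, ← pow_add, ← pow_add,
        add_comm (kz z2) (kz z1)]
    rw [key (z1 + z2) _ _ h12, map_add, locFamily_add_pow D g hg, add_comm (kz z1) (kz z2),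
      locFamily_add_pow D g hg]
  · intro a z
    have h1 : (D.T ^ kz z) (a • z) = D.r0 (a • nz z) := by
      rw [map_smul, map_smul, hz z]
    rw [key (a • z) _ _ h1, map_smul, RingHom.id_apply]

/-- Uniqueness of the extension. -/
theorem locExt_unique (D : CechOps A N0 N1 N01) (g : ℕ → N0 →ₗ[A] P)
    (G G' : N01 →ₗ[A] P)
    (hG : ∀ (z : N01) (k : ℕ) (n : N0), (D.T ^ k) z = D.r0 n → G z = g k n)
    (hG' : ∀ (z : N01) (k : ℕ) (n : N0), (D.T ^ k) z = D.r0 n → G' z = g k n) : G = G' := by
  ext z
  obtain ⟨k, n, h⟩ := D.loc0 z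
  rw [hG z k n h, hG' z k n h]

end LocExt

section DivX

variable (A) (n : ℕ)

/-- Componentwise `divX` on `A[X]^n`, as an `A`-linear map. -/
noncomputable def divXVec : (Fin n → A[X]) →ₗ[A] (Fin n → A[X]) where
  toFun w i := (w i).divX
  map_add' w w' := by
    ext i j
    simp
  map_smul' a w := by
    ext i j
    simp

@[simp] theorem divXVec_apply (w : Fin n → A[X]) (i : Fin n) :
    divXVec A n w i = (w i).divX := rfl

@[simp] theorem divXVec_X_smul (w : Fin n → A[X]) : divXVec A n ((X : A[X]) • w) = w := by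
  ext i j
  simp

theorem divXVec_pow_succ_X_smul (k : ℕ) (w : Fin n → A[X]) :
    ((divXVec A n) ^ (k + 1)) ((X : A[X]) • w) = ((divXVec A n) ^ k) w := by
  rw [pow_succ, Module.End.mul_apply, divXVec_X_smul]

end DivX

/-- **Retraction of the restriction map.**  If `N0` is an `X`-equivariant retract of `A[X]^n` and
`r0 : N0 → N01` is injective, then `r0` has an `A`-linear retraction. -/
theorem exists_retraction_r0 (D : CechOps A N0 N1 N01) (h0 : IsFGProj D.X0)
    (hr0 : Function.Injective D.r0) : ∃ s : N01 →ₗ[A] N0, s ∘ₗ D.r0 = LinearMap.id := by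
  obtain ⟨n, ι, π, hπι, hι, -⟩ := h0
  obtain ⟨G, hG⟩ := exists_locExt D hr0 (fun k => π ∘ₗ ((divXVec A n) ^ k) ∘ₗ ι) (by
    intro k m
    simp only [LinearMap.comp_apply]
    rw [hι, divXVec_pow_succ_X_smul])
  refine ⟨G, ?_⟩
  ext m
  have := hG (D.r0 m) 0 m (by simp)
  rw [LinearMap.comp_apply, this]
  simpa using LinearMap.congr_fun hπι m

/-- The restriction map stays injective after tensoring with any module. -/
theorem r0_lTensor_injective (D : CechOps A N0 N1 N01) (h0 : IsFGProj D.X0)
    (hr0 : Function.Injective D.r0) (M : Type w) [AddCommGroup M] [Module A M] :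
    Function.Injective (D.r0.lTensor M) := by
  obtain ⟨s, hs⟩ := exists_retraction_r0 D h0 hr0
  have h1 : s.lTensor M ∘ₗ D.r0.lTensor M = LinearMap.id := by
    rw [← LinearMap.lTensor_comp, hs, LinearMap.lTensor_id]
  exact Function.LeftInverse.injective (g := s.lTensor M) (fun x => LinearMap.congr_fun h1 x)

end Fermat.Agent.S25.H310
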