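import Fermat.Agent.S25.H310.FlatQuotient

/-!
# E2: a linear map whose kernel commutes with base change has a generalized inverse

Let `f : F →ₗ[A] F'` be a linear map with `F` finitely generated and `F'` finitely presented and
flat (e.g. both finitely generated free).  If the formation of `ker f` commutes with the base
changes `A → A ⧸ J` (`J` a finitely generated ideal), in the weak sense that
`(A ⧸ J) ⊗ ker f → ker ((A ⧸ J) ⊗ f)` is onto, then

* `coker f` is flat, finitely presented and projective;
* there is `t : F' →ₗ[A] F` with `f ∘ t ∘ f = f`;
* `ker f` and `range f` are direct summands, finitely generated (and projective if `F` is);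
* the formation of `ker f` commutes with *every* base change (and every tensor product).
-/

open TensorProduct

set_option autoImplicit false
set_option linter.style.haveILetI false
set_option linter.unusedSimpArgs false

namespace Fermat.Agent.S25.H310

universe u v w

variable {A : Type u} [CommRing A] {F : Type v} {F' : Type w}
  [AddCommGroup F] [Module A F] [AddCommGroup F'] [Module A F']

/-- The universal-kernel condition for the quotients `A ⧸ J`, in elementary form:
if `f x ∈ J F'` then `x ∈ ker f + J F`. -/
def KerCommutesModIdeals (f : F →ₗ[A] F') : Prop :=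
  ∀ J : Ideal A, J.FG → ∀ x : F, f x ∈ (J • ⊤ : Submodule A F') →
    x ∈ LinearMap.ker f ⊔ (J • ⊤ : Submodule A F)

/-- A generalized inverse of `f`. -/
def IsGeneralizedInverse (f : F →ₗ[A] F') (t : F' →ₗ[A] F) : Prop :=
  f ∘ₗ t ∘ₗ f = f

theorem IsGeneralizedInverse.apply {f : F →ₗ[A] F'} {t : F' →ₗ[A] F}
    (h : IsGeneralizedInverse f t) (x : F) : f (t (f x)) = f x :=
  LinearMap.congr_fun h x

/-! ### From the kernel condition to flatness of the cokernel -/

theorem range_inf_smul_le_of_kerCommutesModIdeals {f : F →ₗ[A] F'}
    (h : KerCommutesModIdeals f) (J : Ideal A) (hJ : J.FG) :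
    LinearMap.range f ⊓ (J • ⊤ : Submodule A F') ≤ J • LinearMap.range f := by
  rintro y ⟨⟨x, rfl⟩, hy⟩
  have hx := h J hJ x hy
  obtain ⟨k, hk, z, hz, rfl⟩ := Submodule.mem_sup.mp hx
  have hk0 : f k = 0 := hk
  rw [map_add, hk0, zero_add]
  have h1 : f z ∈ Submodule.map f (J • (⊤ : Submodule A F)) := Submodule.mem_map_of_mem hz
  rwa [Submodule.map_smul'', Submodule.map_top] at h1

theorem flat_coker_of_kerCommutesModIdeals [Module.Flat A F'] {f : F →ₗ[A] F'}
    (h : KerCommutesModIdeals f) : Module.Flat A (F' ⧸ LinearMap.range f) :=
  flat_quotient_of_inf_smul_le _ (range_inf_smul_le_of_kerCommutesModIdeals h)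

theorem finitePresentation_coker [Module.Finite A F] [Module.FinitePresentation A F']
    (f : F →ₗ[A] F') : Module.FinitePresentation A (F' ⧸ LinearMap.range f) := by
  refine Module.finitePresentation_of_surjective (LinearMap.range f).mkQ
    (Submodule.mkQ_surjective _) ?_
  rw [Submodule.ker_mkQ, LinearMap.range_eq_map]
  exact (Module.Finite.fg_top (R := A) (M := F)).map f

theorem projective_coker_of_kerCommutesModIdeals [Module.Finite A F]
    [Module.FinitePresentation A F'] [Module.Flat A F'] {f : F →ₗ[A] F'}
    (h : KerCommutesModIdeals f) : Module.Projective A (F' ⧸ LinearMap.range f) := by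
  haveI := flat_coker_of_kerCommutesModIdeals h
  haveI := finitePresentation_coker f
  exact Module.Flat.projective_of_finitePresentation

/-! ### Existence of a generalized inverse -/

/-- If `coker f` is projective and `F'` is projective, then `f` has a generalized inverse. -/
theorem exists_isGeneralizedInverse_of_projective_coker [Module.Projective A F']
    (f : F →ₗ[A] F') [hQ : Module.Projective A (F' ⧸ LinearMap.range f)] :
    ∃ t : F' →ₗ[A] F, IsGeneralizedInverse f t := by
  -- a section of the quotient map
  obtain ⟨σ, hσ⟩ := Module.projective_lifting_property (LinearMap.range f).mkQ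
    (LinearMap.id : (F' ⧸ LinearMap.range f) →ₗ[A] _) (Submodule.mkQ_surjective _)
  -- the projector onto `range f`
  let p : F' →ₗ[A] F' := LinearMap.id - σ ∘ₗ (LinearMap.range f).mkQ
  have hp_mem : ∀ y, p y ∈ LinearMap.range f := by
    intro y
    rw [← Submodule.Quotient.mk_eq_zero, ← Submodule.mkQ_apply]
    have hthis : (LinearMap.range f).mkQ (σ ((LinearMap.range f).mkQ y)) =
        (LinearMap.range f).mkQ y := LinearMap.congr_fun hσ ((LinearMap.range f).mkQ y)
    simp only [p, LinearMap.sub_apply, LinearMap.id_apply, LinearMap.comp_apply, map_sub, hthis,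
      sub_self]
  have hp_fix : ∀ x, p (f x) = f x := by
    intro x
    have h0 : (LinearMap.range f).mkQ (f x) = 0 := by
      rw [Submodule.mkQ_apply, Submodule.Quotient.mk_eq_zero]
      exact LinearMap.mem_range_self f x
    simp [p, h0]
  let p' : F' →ₗ[A] LinearMap.range f := p.codRestrict _ hp_mem
  -- `range f` is projective, being a direct summand of `F'`
  haveI : Module.Projective A (LinearMap.range f) :=
    Module.Projective.of_split (LinearMap.range f).subtype p' (by
      ext ⟨y, x, rfl⟩
      simp [p', hp_fix])
  obtain ⟨τ, hτ⟩ := Module.projective_lifting_property f.rangeRestrict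
    (LinearMap.id : LinearMap.range f →ₗ[A] _) f.surjective_rangeRestrict
  refine ⟨τ ∘ₗ p', ?_⟩
  ext x
  have h1 : p' (f x) = f.rangeRestrict x := by
    apply Subtype.ext
    simp [p', hp_fix]
  have h2 := LinearMap.congr_fun hτ (f.rangeRestrict x)
  simp only [LinearMap.comp_apply, LinearMap.id_apply] at h2
  have h3 : f (τ (f.rangeRestrict x)) = f x := by
    have := congrArg Subtype.val h2
    simpa using this
  simp only [LinearMap.comp_apply, h1, h3]

/-- **E2, core statement.**  If the formation of `ker f` commutes with the base changes
`A → A ⧸ J`, then `f` has a generalized inverse. -/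
theorem exists_isGeneralizedInverse [Module.Finite A F] [Module.FinitePresentation A F']
    [Module.Flat A F'] {f : F →ₗ[A] F'} (h : KerCommutesModIdeals f) :
    ∃ t : F' →ₗ[A] F, IsGeneralizedInverse f t := by
  haveI : Module.Projective A F' := Module.Flat.projective_of_finitePresentation
  haveI := projective_coker_of_kerCommutesModIdeals h
  exact exists_isGeneralizedInverse_of_projective_coker f

/-- Converse: a map with a generalized inverse satisfies the kernel condition. -/
theorem IsGeneralizedInverse.kerCommutesModIdeals {f : F →ₗ[A] F'} {t : F' →ₗ[A] F}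
    (h : IsGeneralizedInverse f t) : KerCommutesModIdeals f := by
  intro J _ x hx
  have h1 : x - t (f x) ∈ LinearMap.ker f := by
    rw [LinearMap.mem_ker, map_sub, h.apply, sub_self]
  have h2 : t (f x) ∈ (J • ⊤ : Submodule A F) := by
    have : t (f x) ∈ Submodule.map t (J • (⊤ : Submodule A F')) := Submodule.mem_map_of_mem hx
    rw [Submodule.map_smul''] at this
    exact Submodule.smul_mono (le_refl J) le_top this
  have : x = (x - t (f x)) + t (f x) := by abel
  rw [this]
  exact Submodule.add_mem_sup h1 h2

/-! ### Consequences of a generalized inverse -/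

section Consequences

variable {f : F →ₗ[A] F'} {t : F' →ₗ[A] F}

/-- The retraction of `F` onto `ker f` attached to a generalized inverse. -/
noncomputable def IsGeneralizedInverse.kerRetraction (h : IsGeneralizedInverse f t) :
    F →ₗ[A] LinearMap.ker f :=
  (LinearMap.id - t ∘ₗ f).codRestrict _ (fun x => by
    rw [LinearMap.mem_ker]
    simp [h.apply])

theorem IsGeneralizedInverse.kerRetraction_coe (h : IsGeneralizedInverse f t) (x : F) :
    (h.kerRetraction x : F) = x - t (f x) := rfl

theorem IsGeneralizedInverse.kerRetraction_comp_subtype (h : IsGeneralizedInverse f t) :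
    h.kerRetraction ∘ₗ (LinearMap.ker f).subtype = LinearMap.id := by
  ext ⟨x, hx⟩
  have hx0 : f x = 0 := hx
  simp [IsGeneralizedInverse.kerRetraction_coe, hx0]

theorem IsGeneralizedInverse.subtype_comp_kerRetraction (h : IsGeneralizedInverse f t) :
    (LinearMap.ker f).subtype ∘ₗ h.kerRetraction = LinearMap.id - t ∘ₗ f := by
  ext x
  simp [IsGeneralizedInverse.kerRetraction_coe]

theorem IsGeneralizedInverse.kerRetraction_surjective (h : IsGeneralizedInverse f t) :
    Function.Surjective h.kerRetraction := fun y =>
  ⟨y, LinearMap.congr_fun h.kerRetraction_comp_subtype y⟩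

theorem IsGeneralizedInverse.finite_ker [Module.Finite A F] (h : IsGeneralizedInverse f t) :
    Module.Finite A (LinearMap.ker f) :=
  Module.Finite.of_surjective h.kerRetraction h.kerRetraction_surjective

theorem IsGeneralizedInverse.projective_ker [Module.Projective A F]
    (h : IsGeneralizedInverse f t) : Module.Projective A (LinearMap.ker f) :=
  Module.Projective.of_split (LinearMap.ker f).subtype h.kerRetraction
    h.kerRetraction_comp_subtype

theorem IsGeneralizedInverse.ker_isCompl (h : IsGeneralizedInverse f t) :
    IsCompl (LinearMap.ker f) (LinearMap.ker h.kerRetraction) :=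
  LinearMap.isCompl_of_proj (fun x => LinearMap.congr_fun h.kerRetraction_comp_subtype x)

/-- The retraction of `F'` onto `range f` attached to a generalized inverse. -/
noncomputable def IsGeneralizedInverse.rangeRetraction (_h : IsGeneralizedInverse f t) :
    F' →ₗ[A] LinearMap.range f :=
  f.rangeRestrict ∘ₗ t

theorem IsGeneralizedInverse.rangeRetraction_comp_subtype (h : IsGeneralizedInverse f t) :
    h.rangeRetraction ∘ₗ (LinearMap.range f).subtype = LinearMap.id := by
  ext ⟨y, x, rfl⟩
  simp [IsGeneralizedInverse.rangeRetraction, h.apply]

theorem IsGeneralizedInverse.projective_range [Module.Projective A F']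
    (h : IsGeneralizedInverse f t) : Module.Projective A (LinearMap.range f) :=
  Module.Projective.of_split (LinearMap.range f).subtype h.rangeRetraction
    h.rangeRetraction_comp_subtype

theorem IsGeneralizedInverse.range_isCompl (h : IsGeneralizedInverse f t) :
    IsCompl (LinearMap.range f) (LinearMap.ker h.rangeRetraction) :=
  LinearMap.isCompl_of_proj (fun x => LinearMap.congr_fun h.rangeRetraction_comp_subtype x)

/-- The cokernel of a map with a generalized inverse is projective when the target is. -/
theorem IsGeneralizedInverse.projective_coker [Module.Projective A F']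
    (h : IsGeneralizedInverse f t) : Module.Projective A (F' ⧸ LinearMap.range f) := by
  -- `coker f` is a retract of `F'` via `y ↦ y - f (t y)`
  let s : (F' ⧸ LinearMap.range f) →ₗ[A] F' :=
    (LinearMap.range f).liftQ (LinearMap.id - f ∘ₗ t) (by
      rintro y ⟨x, rfl⟩
      rw [LinearMap.mem_ker]
      simp [h.apply])
  refine Module.Projective.of_split s (LinearMap.range f).mkQ ?_
  ext y
  have : (LinearMap.range f).mkQ (f (t y)) = 0 := by
    rw [Submodule.mkQ_apply, Submodule.Quotient.mk_eq_zero]
    exact LinearMap.mem_range_self f _
  simp [s, this]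

/-! ### Base change -/

/-- The generalized inverse survives every base change. -/
theorem IsGeneralizedInverse.baseChange (h : IsGeneralizedInverse f t) (B : Type*) [CommRing B]
    [Algebra A B] : f.baseChange B ∘ₗ t.baseChange B ∘ₗ f.baseChange B = f.baseChange B := by
  rw [← LinearMap.baseChange_comp, ← LinearMap.baseChange_comp]
  exact congrArg (LinearMap.baseChange B) h

/-- The formation of the kernel commutes with every base change: injectivity. -/
theorem IsGeneralizedInverse.baseChange_subtype_injective (h : IsGeneralizedInverse f t)
    (B : Type*) [CommRing B] [Algebra A B] :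
    Function.Injective ((LinearMap.ker f).subtype.baseChange B) := by
  have h1 : h.kerRetraction.baseChange B ∘ₗ (LinearMap.ker f).subtype.baseChange B =
      LinearMap.id := by
    rw [← LinearMap.baseChange_comp, h.kerRetraction_comp_subtype, LinearMap.baseChange_id]
  exact Function.LeftInverse.injective (g := h.kerRetraction.baseChange B)
    (fun x => LinearMap.congr_fun h1 x)

/-- The formation of the kernel commutes with every base change: the kernel of `B ⊗ f` is the
image of `B ⊗ ker f`. -/
theorem IsGeneralizedInverse.ker_baseChange (h : IsGeneralizedInverse f t)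
    (B : Type*) [CommRing B] [Algebra A B] :
    LinearMap.ker (f.baseChange B) =
      LinearMap.range ((LinearMap.ker f).subtype.baseChange B) := by
  apply le_antisymm
  · intro z hz
    have hz0 : f.baseChange B z = 0 := hz
    have h1 : ((LinearMap.ker f).subtype ∘ₗ h.kerRetraction).baseChange B z = z := by
      rw [h.subtype_comp_kerRetraction, LinearMap.baseChange_sub, LinearMap.baseChange_id,
        LinearMap.baseChange_comp]
      simp [hz0]
    rw [LinearMap.baseChange_comp] at h1
    exact ⟨h.kerRetraction.baseChange B z, h1⟩
  · rintro _ ⟨w, rfl⟩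
    rw [LinearMap.mem_ker, ← LinearMap.comp_apply, ← LinearMap.baseChange_comp]
    have : f ∘ₗ (LinearMap.ker f).subtype = 0 := by
      ext ⟨x, hx⟩
      exact hx
    rw [this, LinearMap.baseChange_zero, LinearMap.zero_apply]

/-- Tensor version (arbitrary module `M`): injectivity. -/
theorem IsGeneralizedInverse.lTensor_subtype_injective (h : IsGeneralizedInverse f t)
    (M : Type*) [AddCommGroup M] [Module A M] :
    Function.Injective ((LinearMap.ker f).subtype.lTensor M) := by
  have h1 : h.kerRetraction.lTensor M ∘ₗ (LinearMap.ker f).subtype.lTensor M =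
      LinearMap.id := by
    rw [← LinearMap.lTensor_comp, h.kerRetraction_comp_subtype, LinearMap.lTensor_id]
  exact Function.LeftInverse.injective (g := h.kerRetraction.lTensor M)
    (fun x => LinearMap.congr_fun h1 x)

/-- Tensor version (arbitrary module `M`): the kernel of `M ⊗ f` is the image of `M ⊗ ker f`. -/
theorem IsGeneralizedInverse.ker_lTensor (h : IsGeneralizedInverse f t)
    (M : Type*) [AddCommGroup M] [Module A M] :
    LinearMap.ker (f.lTensor M) = LinearMap.range ((LinearMap.ker f).subtype.lTensor M) := by
  apply le_antisymm
  · intro z hz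
    have hz0 : f.lTensor M z = 0 := hz
    have h1 : ((LinearMap.ker f).subtype ∘ₗ h.kerRetraction).lTensor M z = z := by
      rw [h.subtype_comp_kerRetraction, LinearMap.lTensor_sub, LinearMap.lTensor_id,
        LinearMap.lTensor_comp]
      simp [hz0]
    rw [LinearMap.lTensor_comp] at h1
    exact ⟨h.kerRetraction.lTensor M z, h1⟩
  · rintro _ ⟨w, rfl⟩
    rw [LinearMap.mem_ker, ← LinearMap.comp_apply, ← LinearMap.lTensor_comp]
    have : f ∘ₗ (LinearMap.ker f).subtype = 0 := by
      ext ⟨x, hx⟩
      exact hx
    rw [this, LinearMap.lTensor_zero, LinearMap.zero_apply]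

end Consequences

end Fermat.Agent.S25.H310
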