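/-
S25, block CECH, leaf K5 (helper310): base change of the operator-style Čech core.

* `isFGProj_baseChange` (K5a): an `X`-equivariant retract of `A[X]^n` base changes to an
  `X`-equivariant retract of `A'[X]^n`;
* `r0_baseChange_injective` (K5b): the restriction map stays injective after base change
  (it is a split injection of `A`-modules, `exists_retraction_r0`);
* `baseChange_d` (K5c): the twisted differential commutes with base change;
* `H0_baseChange_bijective` (K5d): if `d m` is surjective, `H⁰` commutes with base change.

Statements exactly as in `Fermat/Agent/S25/H10/CechSkel.lean`.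
-/
import Fermat.Agent.S25.H10.CechDefs
import Fermat.Agent.S25.H310.LocExt
import Fermat.Agent.S25.H310.UniversalKernel
import Fermat.Agent.S25.H490.ProjN01

set_option autoImplicit false

namespace Fermat.Agent.S25.H310

open Polynomial TensorProduct Fermat.Agent.S25.H10

universe u v w

variable {A : Type u} [CommRing A]

section PolyVec

variable (A) (A' : Type w) [CommRing A'] [Algebra A A'] (n : ℕ)

/-- The canonical isomorphism `A' ⊗[A] A[X]^n ≃ A'[X]^n`. -/
noncomputable def polyVecBaseChange : A' ⊗[A] (Fin n → A[X]) ≃ₗ[A'] (Fin n → A'[X]) :=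
  TensorProduct.piRight A A' A' (fun _ : Fin n => A[X]) ≪≫ₗ
    LinearEquiv.piCongrRight (fun _ : Fin n => (polyEquivTensor' A A').symm.toLinearEquiv)

theorem polyVecBaseChange_tmul (a : A') (w : Fin n → A[X]) (i : Fin n) :
    polyVecBaseChange A A' n (a ⊗ₜ[A] w) i = a • (w i).map (algebraMap A A') := by
  simp [polyVecBaseChange]

theorem polyVecBaseChange_X_smul (u : A' ⊗[A] (Fin n → A[X])) :
    polyVecBaseChange A A' n
        (((Algebra.lsmul A A (Fin n → A[X]) (X : A[X])).baseChange A') u) =
      (X : A'[X]) • polyVecBaseChange A A' n u := by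
  induction u using TensorProduct.induction_on with
  | zero => simp
  | tmul a w =>
    ext1 i
    rw [LinearMap.baseChange_tmul, polyVecBaseChange_tmul, Pi.smul_apply,
      polyVecBaseChange_tmul]
    simp
  | add x y hx hy => simp only [map_add, hx, hy, smul_add]

theorem polyVecBaseChange_symm_X_smul (w : Fin n → A'[X]) :
    (polyVecBaseChange A A' n).symm ((X : A'[X]) • w) =
      ((Algebra.lsmul A A (Fin n → A[X]) (X : A[X])).baseChange A')
        ((polyVecBaseChange A A' n).symm w) := by
  apply (polyVecBaseChange A A' n).injective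
  rw [polyVecBaseChange_X_smul, LinearEquiv.apply_symm_apply, LinearEquiv.apply_symm_apply]

end PolyVec

section K5
variable (A' : Type w) [CommRing A'] [Algebra A A']

/-- K5a. `IsFGProj` is stable under base change. -/
theorem isFGProj_baseChange {N : Type v} [AddCommGroup N] [Module A N] {E : Module.End A N}
    (h : IsFGProj E) : IsFGProj (E.baseChange A') := by
  obtain ⟨n, ι, π, hπι, hι, hπ⟩ := h
  have hι' : ι ∘ₗ E = Algebra.lsmul A A (Fin n → A[X]) (X : A[X]) ∘ₗ ι :=
    LinearMap.ext fun v => hι v
  have hπ' : π ∘ₗ Algebra.lsmul A A (Fin n → A[X]) (X : A[X]) = E ∘ₗ π :=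
    LinearMap.ext fun w => hπ w
  refine ⟨n, (polyVecBaseChange A A' n).toLinearMap ∘ₗ ι.baseChange A',
    π.baseChange A' ∘ₗ (polyVecBaseChange A A' n).symm.toLinearMap, ?_, ?_, ?_⟩
  · refine LinearMap.ext fun v => ?_
    simp only [LinearMap.comp_apply, LinearEquiv.coe_coe, LinearEquiv.symm_apply_apply,
      LinearMap.id_apply]
    rw [← LinearMap.comp_apply, ← LinearMap.baseChange_comp, hπι, LinearMap.baseChange_id,
      LinearMap.id_apply]
  · intro v
    simp only [LinearMap.comp_apply, LinearEquiv.coe_coe]
    rw [← polyVecBaseChange_X_smul, ← LinearMap.comp_apply (f := ι.baseChange A'),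
      ← LinearMap.baseChange_comp, hι', LinearMap.baseChange_comp, LinearMap.comp_apply]
  · intro w
    simp only [LinearMap.comp_apply, LinearEquiv.coe_coe]
    rw [polyVecBaseChange_symm_X_smul, ← LinearMap.comp_apply (f := π.baseChange A'),
      ← LinearMap.baseChange_comp, hπ', LinearMap.baseChange_comp, LinearMap.comp_apply]

variable {N0 N1 N01 : Type v}
  [AddCommGroup N0] [AddCommGroup N1] [AddCommGroup N01]
  [Module A N0] [Module A N1] [Module A N01]

/-- K5b. Injectivity of the restriction map is stable under base change. -/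
theorem r0_baseChange_injective (D : CechOps A N0 N1 N01) (h0 : IsFGProj D.X0)
    (hr0 : Function.Injective D.r0) : Function.Injective (D.r0.baseChange A') := by
  obtain ⟨s, hs⟩ := exists_retraction_r0 D h0 hr0
  have h1 : s.baseChange A' ∘ₗ D.r0.baseChange A' = LinearMap.id := by
    rw [← LinearMap.baseChange_comp, hs, LinearMap.baseChange_id]
  exact Function.LeftInverse.injective (g := s.baseChange A')
    (fun x => LinearMap.congr_fun h1 x)

theorem baseChange_pow {N : Type v} [AddCommGroup N] [Module A N] (E : Module.End A N)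
    (k : ℕ) : (E.baseChange A') ^ k = (E ^ k).baseChange A' := by
  induction k with
  | zero => simp [Module.End.one_eq_id]
  | succ k ih => rw [pow_succ, ih, pow_succ, LinearMap.baseChange_mul]

/-- K5c. The twisted differential of the base change is the base change of the twisted
differential (up to the canonical iso `A' ⊗ (N0 × N1) ≃ (A' ⊗ N0) × (A' ⊗ N1)`). -/
theorem baseChange_d (D : CechOps A N0 N1 N01) (m : ℕ) :
    (D.baseChange A').d m ∘ₗ
        ((TensorProduct.prodRight A A' A' N0 N1).toLinearMap) = (D.d m).baseChange A' := by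
  apply TensorProduct.AlgebraTensorModule.ext
  intro a p
  have hT : (D.baseChange A').T = D.T.baseChange A' := rfl
  have hr0 : (D.baseChange A').r0 = D.r0.baseChange A' := rfl
  have hr1 : (D.baseChange A').r1 = D.r1.baseChange A' := rfl
  rw [LinearMap.comp_apply, LinearEquiv.coe_coe, TensorProduct.prodRight_tmul,
    CechOps.d_apply, hT, hr0, hr1, baseChange_pow, LinearMap.baseChange_tmul,
    LinearMap.baseChange_tmul, LinearMap.baseChange_tmul, LinearMap.baseChange_tmul,
    CechOps.d_apply, TensorProduct.tmul_sub]

/-- K5d. If `d m` is surjective, `H⁰` commutes with base change: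
`A' ⊗ ker (d m) → ker (A' ⊗ d m)` is bijective. -/
theorem H0_baseChange_bijective (D : CechOps A N0 N1 N01)
    (h0 : IsFGProj D.X0) (hr0 : Function.Injective D.r0) (m : ℕ)
    (hsurj : Function.Surjective (D.d m)) :
    Function.Injective ((D.H0 m).subtype.baseChange A') ∧
      LinearMap.range ((D.H0 m).subtype.baseChange A') =
        LinearMap.ker ((D.d m).baseChange A') := by
  have : Module.Projective A N01 := Fermat.Agent.S25.H490.projective_N01 D h0 hr0
  obtain ⟨σ, hσ⟩ := Module.projective_lifting_property (D.d m)
    (LinearMap.id : N01 →ₗ[A] N01) hsurj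
  have hgi : IsGeneralizedInverse (D.d m) σ := by
    show D.d m ∘ₗ σ ∘ₗ D.d m = D.d m
    rw [← LinearMap.comp_assoc, hσ, LinearMap.id_comp]
  exact ⟨hgi.baseChange_subtype_injective A', (hgi.ker_baseChange A').symm⟩

end K5

end Fermat.Agent.S25.H310
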