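/-
S25, block DEGREE (helper310): leaves D2 (invariance under isomorphism / field extension),
`unit_isBC`, `twistE_isBC`, D8-c (`cech_surjective_of_isBC`, `mapH0_isBaseChange`), in the EXACT
shapes of `H10/DegreeSkel.lean` (namespace `Fermat.Agent.S25.H310.D2`).

None of these needs the curve-chart hypothesis `hC` (it is kept for the frozen shape): only that
`k` is a field, so that `A ⊗[k] B₀₁` is a free `A`-module.
-/
import Fermat.Agent.S25.H10.DegreeDefs
import Fermat.Agent.S25.H310.DegreeInvariance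
import Fermat.Agent.S25.H310.UniversalKernel

set_option autoImplicit false

universe u

open scoped TensorProduct

namespace Fermat.Agent.S25.H310

open Fermat.Agent.S25 Fermat.Agent.S25.H10

/-! ### Projectivity over the base ring -/

section Proj

/-- A projective module over an `A`-algebra `R` which is free as an `A`-module is projective over
`A`. -/
theorem projective_of_tower (A R M : Type*) [CommRing A] [CommRing R] [Algebra A R]
    [Module.Free A R] [AddCommGroup M] [Module R M] [Module A M] [IsScalarTower A R M]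
    [Module.Projective R M] : Module.Projective A M := by
  obtain ⟨s, hs⟩ := (Module.projective_def' (R := R) (P := M)).mp inferInstance
  exact Module.Projective.of_split (s.restrictScalars A)
    ((Finsupp.linearCombination R (id : M → M)).restrictScalars A)
    (LinearMap.ext fun m => LinearMap.congr_fun hs m)

variable {A R₀ R₁ R₀₁ : Type u} [CommRing A] [CommRing R₀] [CommRing R₁]
    [CommRing R₀₁] [Algebra A R₀] [Algebra A R₁] [Algebra A R₀₁] [Algebra R₀ R₀₁]
    [Algebra R₁ R₀₁] [IsScalarTower A R₀ R₀₁] [IsScalarTower A R₁ R₀₁]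

/-- `N₀₁` is projective over `R₀₁`. -/
theorem projective_N₀₁ (G : GlueDatum A R₀ R₁ R₀₁) : Module.Projective R₀₁ G.N₀₁ := by
  have := G.invertible₀
  exact Module.Projective.of_equiv G.isBaseChange₀.equiv

/-- `N₀₁` is projective over the base ring `A` when `R₀₁` is `A`-free. -/
theorem projective_N₀₁_base (G : GlueDatum A R₀ R₁ R₀₁) [Module.Free A R₀₁] :
    Module.Projective A G.N₀₁ := by
  have := projective_N₀₁ G
  exact projective_of_tower A R₀₁ G.N₀₁

/-- A surjective Čech differential has an `A`-linear section (when `R₀₁` is `A`-free). -/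
theorem exists_section_cech (G : GlueDatum A R₀ R₁ R₀₁) [Module.Free A R₀₁]
    (h : Function.Surjective G.cech) : ∃ σ : G.N₀₁ →ₗ[A] G.N₀ × G.N₁, G.cech ∘ₗ σ = LinearMap.id := by
  have := projective_N₀₁_base G
  exact Module.projective_lifting_property G.cech LinearMap.id h

end Proj

variable {k : Type u} [Field k] {B₀ B₁ B₀₁ : Type u} [CommRing B₀] [CommRing B₁] [CommRing B₀₁]
  [Algebra k B₀] [Algebra k B₁] [Algebra k B₀₁] [Algebra B₀ B₀₁] [Algebra B₁ B₀₁]
  [IsScalarTower k B₀ B₀₁] [IsScalarTower k B₁ B₀₁]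

/-! ### Passing from `φ : A →ₐ[k] A'` to an `Algebra A A'` instance -/

section Phi

variable {A A' : Type u} [CommRing A] [Algebra k A] [CommRing A'] [Algebra k A']

/-- `Ȟ¹ = 0` is preserved by every base change. -/
theorem cech_surjective_of_isBC' (φ : A →ₐ[k] A')
    {G : CurveGD k B₀ B₁ B₀₁ A} {G' : CurveGD k B₀ B₁ B₀₁ A'} (h : CurveGD.IsBC φ G G')
    (hs : Function.Surjective G.cech) : Function.Surjective G'.cech := by
  let : Algebra A A' := φ.toRingHom.toAlgebra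
  have : IsScalarTower k A A' := IsScalarTower.of_algebraMap_eq' φ.comp_algebraMap.symm
  have hφ : IsScalarTower.toAlgHom k A A' = φ := AlgHom.ext fun _ => rfl
  rw [← hφ] at h
  obtain ⟨bm⟩ := h
  exact BCMaps.cech_surjective bm hs

/-- The unit datum over `A'` is a base change of the unit datum over `A`. -/
theorem unit_isBC' (φ : A →ₐ[k] A') :
    CurveGD.IsBC (B₀ := B₀) (B₁ := B₁) (B₀₁ := B₀₁) φ
      (GlueDatum.unit A (A ⊗[k] B₀) (A ⊗[k] B₁) (A ⊗[k] B₀₁))
      (GlueDatum.unit A' (A' ⊗[k] B₀) (A' ⊗[k] B₁) (A' ⊗[k] B₀₁)) := by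
  let : Algebra A A' := φ.toRingHom.toAlgebra
  have : IsScalarTower k A A' := IsScalarTower.of_algebraMap_eq' φ.comp_algebraMap.symm
  have hφ : IsScalarTower.toAlgHom k A A' = φ := AlgHom.ext fun _ => rfl
  rw [← hφ]
  exact ⟨unitBCMaps⟩

/-- Twists commute with base change. -/
theorem twistE_isBC' {x : B₀} {y : B₁}
    (hxy : algebraMap B₀ B₀₁ x * algebraMap B₁ B₀₁ y = 1) (φ : A →ₐ[k] A')
    {G : CurveGD k B₀ B₁ B₀₁ A} {G' : CurveGD k B₀ B₁ B₀₁ A'} (h : CurveGD.IsBC φ G G')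
    (n : ℤ) : CurveGD.IsBC φ (twistE x y hxy G n) (twistE x y hxy G' n) := by
  obtain ⟨bm⟩ := h
  have hu : Units.map (tensorMapLeft k φ B₀₁ : A ⊗[k] B₀₁ →* A' ⊗[k] B₀₁) (xUnit x y hxy A) =
      xUnit x y hxy A' := by
    apply Units.ext
    change tensorMapLeft k φ B₀₁ ((1 : A) ⊗ₜ[k] algebraMap B₀ B₀₁ x) =
      (1 : A') ⊗ₜ[k] algebraMap B₀ B₀₁ x
    simp [tensorMapLeft]
  have hun : tensorMapLeft k φ B₀₁ ((xUnit x y hxy A ^ n : (A ⊗[k] B₀₁)ˣ) : A ⊗[k] B₀₁) =
      ((xUnit x y hxy A' ^ n : (A' ⊗[k] B₀₁)ˣ) : A' ⊗[k] B₀₁) := by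
    rw [← hu, ← map_zpow]
    rfl
  exact ⟨{ b₀ := bm.b₀
           b₁ := bm.b₁
           b₀₁ := bm.b₀₁
           comm₀ := bm.comm₀
           comm₁ := fun s => by
             change bm.b₀₁ (((xUnit x y hxy A ^ n : (A ⊗[k] B₀₁)ˣ) : A ⊗[k] B₀₁) • G.r₁ s) =
               ((xUnit x y hxy A' ^ n : (A' ⊗[k] B₀₁)ˣ) : A' ⊗[k] B₀₁) • G'.r₁ (bm.b₁ s)
             rw [LinearMap.map_smulₛₗ, bm.comm₁, hun]
           isBaseChange₀ := bm.isBaseChange₀
           isBaseChange₁ := bm.isBaseChange₁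
           isBaseChange₀₁ := bm.isBaseChange₀₁ }⟩

end Phi

/-! ### `Ȟ⁰` commutes with base change when `Ȟ¹ = 0` -/

section H0BC

variable {A A' : Type u} [CommRing A] [Algebra k A] [CommRing A'] [Algebra k A']
  [Algebra A A'] [IsScalarTower k A A']
  {G : CurveGD k B₀ B₁ B₀₁ A} {G' : CurveGD k B₀ B₁ B₀₁ A'}

/-- If `Ȟ¹(G) = 0` then `A' ⊗[A] Ȟ⁰(G) ≃ Ȟ⁰(G')` for EVERY base change `G'` of `G`. -/
theorem BCMaps.exists_H0Equiv_of_surjective (bm : BCMaps G G')
    (hs : Function.Surjective G.cech) :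
    ∃ e : A' ⊗[A] G.H0 ≃ₗ[A'] G'.H0, ∀ (a : A') (s : G.H0),
      ((e (a ⊗ₜ[A] s) : G'.H0) : G'.N₀ × G'.N₁) =
        (a • bm.b₀ (s : G.N₀ × G.N₁).1, a • bm.b₁ (s : G.N₀ × G.N₁).2) := by
  obtain ⟨σ, hσ⟩ := exists_section_cech G hs
  have hgi : IsGeneralizedInverse G.cech σ := by
    show G.cech ∘ₗ σ ∘ₗ G.cech = G.cech
    rw [← LinearMap.comp_assoc, hσ, LinearMap.id_comp]
  have hinj := hgi.baseChange_subtype_injective A'
  have hrange := hgi.ker_baseChange A'
  -- the canonical map `A' ⊗ ker → ker (A' ⊗ cech)`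
  let j : A' ⊗[A] G.H0 →ₗ[A'] LinearMap.ker (G.cech.baseChange A') :=
    LinearMap.codRestrict _ ((LinearMap.ker G.cech).subtype.baseChange A') (fun z => by
      rw [hrange]
      exact ⟨z, rfl⟩)
  have hj : Function.Bijective j := by
    constructor
    · intro z z' hzz'
      apply hinj
      exact congrArg Subtype.val hzz'
    · rintro ⟨w, hw⟩
      rw [hrange] at hw
      obtain ⟨z, rfl⟩ := hw
      exact ⟨z, Subtype.ext rfl⟩
  refine ⟨(LinearEquiv.ofBijective j hj) ≪≫ₗ BCMaps.kerEquiv bm, fun a s => ?_⟩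
  change bm.equivProd ((LinearMap.ker G.cech).subtype.baseChange A' (a ⊗ₜ[A] s)) = _
  rw [LinearMap.baseChange_tmul, BCMaps.equivProd_tmul]
  rfl

end H0BC

/-! ### The exact shapes of `DegreeSkel.lean` -/

namespace D2

section Field

variable {K R₀ R₁ R₀₁ : Type u} [Field K] [CommRing R₀] [CommRing R₁]
    [CommRing R₀₁] [Algebra K R₀] [Algebra K R₁] [Algebra K R₀₁] [Algebra R₀ R₀₁]
    [Algebra R₁ R₀₁] [IsScalarTower K R₀ R₀₁] [IsScalarTower K R₁ R₀₁]

/-- D2-a. -/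
theorem euler_eq_of_isIso {G G' : GlueDatum K R₀ R₁ R₀₁} (h : G.IsIso G') :
    G.euler = G'.euler := Fermat.Agent.S25.H310.euler_eq_of_isIso h

/-- D2-a'. -/
theorem degree_eq_of_isIso {G G' : GlueDatum K R₀ R₁ R₀₁} (h : G.IsIso G') :
    G.degree = G'.degree := Fermat.Agent.S25.H310.degree_eq_of_isIso h

end Field

variable {x : B₀} {y : B₁} {e : B₁ →ₐ[k] k}

/-- D2-b. The unit datum over `A'` is a base change of the unit datum over `A`. -/
theorem unit_isBC {A A' : Type u} [CommRing A] [Algebra k A] [CommRing A'] [Algebra k A']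
    (φ : A →ₐ[k] A') :
    CurveGD.IsBC (B₀ := B₀) (B₁ := B₁) (B₀₁ := B₀₁) φ
      (GlueDatum.unit A (A ⊗[k] B₀) (A ⊗[k] B₁) (A ⊗[k] B₀₁))
      (GlueDatum.unit A' (A' ⊗[k] B₀) (A' ⊗[k] B₁) (A' ⊗[k] B₀₁)) := unit_isBC' φ

/-- D2-c. Twists commute with base change. -/
theorem twistE_isBC (hC : IsCurveChart k B₀ B₁ B₀₁ x y e) {A A' : Type u} [CommRing A]
    [Algebra k A] [CommRing A'] [Algebra k A'] (φ : A →ₐ[k] A')
    {G : CurveGD k B₀ B₁ B₀₁ A} {G' : CurveGD k B₀ B₁ B₀₁ A'} (h : CurveGD.IsBC φ G G')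
    (n : ℤ) :
    CurveGD.IsBC φ (twistE x y hC.mul_eq_one G n) (twistE x y hC.mul_eq_one G' n) :=
  twistE_isBC' hC.mul_eq_one φ h n

/-- D2-d. Flat base change: `χ` is invariant under field extension. -/
theorem euler_eq_of_isBC (_hC : IsCurveChart k B₀ B₁ B₀₁ x y e) {K K' : Type u} [Field K]
    [Field K'] [Algebra k K] [Algebra k K'] (φ : K →ₐ[k] K') {G : CurveGD k B₀ B₁ B₀₁ K}
    {G' : CurveGD k B₀ B₁ B₀₁ K'} (h : CurveGD.IsBC φ G G') : G'.euler = G.euler :=
  Fermat.Agent.S25.H310.euler_eq_of_isBC φ h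

/-- D2-d'. More precisely `h⁰` and `h¹` are invariant. -/
theorem finrank_H0_eq_of_isBC (_hC : IsCurveChart k B₀ B₁ B₀₁ x y e) {K K' : Type u} [Field K]
    [Field K'] [Algebra k K] [Algebra k K'] (φ : K →ₐ[k] K') {G : CurveGD k B₀ B₁ B₀₁ K}
    {G' : CurveGD k B₀ B₁ B₀₁ K'} (h : CurveGD.IsBC φ G G') :
    Module.finrank K' G'.H0 = Module.finrank K G.H0 := by
  let : Algebra K K' := φ.toRingHom.toAlgebra
  have : IsScalarTower k K K' := IsScalarTower.of_algebraMap_eq' φ.comp_algebraMap.symm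
  have hφ : IsScalarTower.toAlgHom k K K' = φ := AlgHom.ext fun _ => rfl
  rw [← hφ] at h
  obtain ⟨bm⟩ := h
  exact BCMaps.finrank_H0_eq bm

theorem finrank_H1_eq_of_isBC (_hC : IsCurveChart k B₀ B₁ B₀₁ x y e) {K K' : Type u} [Field K]
    [Field K'] [Algebra k K] [Algebra k K'] (φ : K →ₐ[k] K') {G : CurveGD k B₀ B₁ B₀₁ K}
    {G' : CurveGD k B₀ B₁ B₀₁ K'} (h : CurveGD.IsBC φ G G') :
    Module.finrank K' G'.H1 = Module.finrank K G.H1 := by
  let : Algebra K K' := φ.toRingHom.toAlgebra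
  have : IsScalarTower k K K' := IsScalarTower.of_algebraMap_eq' φ.comp_algebraMap.symm
  have hφ : IsScalarTower.toAlgHom k K K' = φ := AlgHom.ext fun _ => rfl
  rw [← hφ] at h
  obtain ⟨bm⟩ := h
  exact BCMaps.finrank_H1_eq bm

/-- D2-e. The degree is invariant under field extension. -/
theorem degree_eq_of_isBC (_hC : IsCurveChart k B₀ B₁ B₀₁ x y e) {K K' : Type u} [Field K]
    [Field K'] [Algebra k K] [Algebra k K'] (φ : K →ₐ[k] K') {G : CurveGD k B₀ B₁ B₀₁ K}
    {G' : CurveGD k B₀ B₁ B₀₁ K'} (h : CurveGD.IsBC φ G G') : G'.degree = G.degree :=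
  Fermat.Agent.S25.H310.degree_eq_of_isBC φ h

/-- D8-c. If `Ȟ¹ = 0` then `Ȟ¹` of every base change vanishes. -/
theorem cech_surjective_of_isBC (_hC : IsCurveChart k B₀ B₁ B₀₁ x y e) {A A' : Type u}
    [CommRing A] [Algebra k A] [CommRing A'] [Algebra k A'] (φ : A →ₐ[k] A')
    {G : CurveGD k B₀ B₁ B₀₁ A} {G' : CurveGD k B₀ B₁ B₀₁ A'} (h : CurveGD.IsBC φ G G')
    (hs : Function.Surjective G.cech) : Function.Surjective G'.cech :=
  cech_surjective_of_isBC' φ h hs

/-- D8-c'. If `Ȟ¹ = 0` then `Ȟ⁰` commutes with every base change. -/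
theorem mapH0_isBaseChange (_hC : IsCurveChart k B₀ B₁ B₀₁ x y e) {A A' : Type u}
    [CommRing A] [Algebra k A] [CommRing A'] [Algebra k A'] (φ : A →ₐ[k] A')
    {G : CurveGD k B₀ B₁ B₀₁ A} {G' : CurveGD k B₀ B₁ B₀₁ A'}
    (bc : GlueDatum.BaseChangeMaps (tensorMapLeft k φ B₀) (tensorMapLeft k φ B₁)
      (tensorMapLeft k φ B₀₁) G G') (hs : Function.Surjective G.cech) :
    IsSemilinearBaseChange φ.toRingHom (mapH0 φ bc) := by
  let : Algebra A A' := φ.toRingHom.toAlgebra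
  have : IsScalarTower k A A' := IsScalarTower.of_algebraMap_eq' φ.comp_algebraMap.symm
  have hφ : IsScalarTower.toAlgHom k A A' = φ := rfl
  obtain ⟨e, he⟩ := BCMaps.exists_H0Equiv_of_surjective (G := G) (G' := G')
    (show BCMaps G G' from bc) hs
  unfold IsSemilinearBaseChange
  let : Module A G'.H0 := Module.compHom G'.H0 φ.toRingHom
  have : IsScalarTower A A' G'.H0 := ⟨fun r r' n => by
    change (φ.toRingHom r * r') • n = φ.toRingHom r • (r' • n)
    rw [mul_smul]⟩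
  refine IsBaseChange.of_equiv e (fun s => ?_)
  apply Subtype.ext
  rw [he]
  simp only [one_smul]
  rfl

end D2

end Fermat.Agent.S25.H310
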