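/-
S25, block ALGCHARTS, leaf DEG1 (helper310): `finrank_sec`, EXACT statement of helper11's skeleton
(`coord/S25-ALGCHARTS-skeleton.lean`).

If `deg G = 0` and `H¹(G(nE₀)) = 0` then `dim H⁰(G(nE₀)) + g = n d + 1`.
Proof: `sec x n G = Ȟ⁰(G(n))` (H190), `deg G(n) = deg G + n d` (H10), Riemann–Roch in definitional
form (H671) and `h¹(O_K) = h¹(O_k)` (invariance under field extension, H310).
-/
import Fermat.Agent.S25.H190.ACDeg3
import Fermat.Agent.S25.H10.DegreeTwist
import Fermat.Agent.S25.H671.UnitH0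
import Fermat.Agent.S25.H310.DegreeD2

set_option autoImplicit false

universe u

open scoped TensorProduct

namespace Fermat.Agent.S25.H310

open Fermat.Agent.S25 Fermat.Agent.S25.H10 Fermat.Agent.S25.H11

variable {k : Type u} [Field k] [IsAlgClosed k]
  {B₀ B₁ B₀₁ : Type u} [CommRing B₀] [CommRing B₁] [CommRing B₀₁]
  [Algebra k B₀] [Algebra k B₁] [Algebra k B₀₁] [Algebra B₀ B₀₁] [Algebra B₁ B₀₁]
  [IsScalarTower k B₀ B₀₁] [IsScalarTower k B₁ B₀₁]
  {x : B₀} {y : B₁} {e : B₁ →ₐ[k] k}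

section Degree

variable {K : Type u} [Field K] [Algebra k K]

omit [IsAlgClosed k] in
/-- `h¹(O_K) = g`: the genus does not depend on the base field. -/
theorem finrank_H1_unit_eq_genus (hC : IsCurveChart k B₀ B₁ B₀₁ x y e) :
    Module.finrank K (GlueDatum.unit K (K ⊗[k] B₀) (K ⊗[k] B₁) (K ⊗[k] B₀₁)).H1 =
      Module.finrank k (GlueDatum.unit k (k ⊗[k] B₀) (k ⊗[k] B₁) (k ⊗[k] B₀₁)).H1 :=
  D2.finrank_H1_eq_of_isBC hC (Algebra.ofId k K) (D2.unit_isBC (Algebra.ofId k K))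

/-- General form of DEG1, without the hypothesis on the degree:
`dim H⁰(G(nE₀)) + g = deg G + n d + 1` when `H¹(G(nE₀)) = 0`. -/
theorem finrank_sec_add_genus (hC : IsCurveChart k B₀ B₁ B₀₁ x y e) (G : CurveGD k B₀ B₁ B₀₁ K)
    (n : ℕ) (h0 : P0 x n G) :
    (Module.finrank K (sec x n G) : ℤ) +
        Module.finrank k (GlueDatum.unit k (k ⊗[k] B₀) (k ⊗[k] B₁) (k ⊗[k] B₀₁)).H1 =
      G.degree + n * Module.finrank k (B₁ ⧸ Ideal.span {y}) + 1 := by
  have hsurj : Function.Surjective (twistE x y hC.mul_eq_one G (n : ℤ)).cech := by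
    rw [← H190.tcech_eq_twistE_cech hC n G]
    exact h0
  have hH1 : Module.finrank K (twistE x y hC.mul_eq_one G (n : ℤ)).H1 = 0 := by
    have htop : LinearMap.range (twistE x y hC.mul_eq_one G (n : ℤ)).cech = ⊤ :=
      LinearMap.range_eq_top.mpr hsurj
    have : Subsingleton (twistE x y hC.mul_eq_one G (n : ℤ)).H1 :=
      Submodule.Quotient.subsingleton_iff.mpr htop
    exact Module.finrank_zero_of_subsingleton
  have hRR := H671.finrank_H0_sub_finrank_H1 hC K (twistE x y hC.mul_eq_one G (n : ℤ))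
  have hdeg := degree_twistE hC G (n : ℤ)
  have hsec : Module.finrank K (sec x n G) =
      Module.finrank K (twistE x y hC.mul_eq_one G (n : ℤ)).H0 := by
    rw [H190.sec_eq_twistE_H0 hC n G]
    rfl
  rw [hH1, hdeg, finrank_H1_unit_eq_genus hC] at hRR
  rw [hsec]
  unfold chartDeg at hRR
  push_cast at hRR ⊢
  linarith

/-- DEG1 (`χ(G(nE₀)) = χ(G) + n d`, `χ(O_K) = 1 - g`): if `deg G = 0` and `H¹(G(nE₀)) = 0` then
`dim H⁰(G(nE₀)) = n d + 1 - g`. -/
theorem finrank_sec (hC : IsCurveChart k B₀ B₁ B₀₁ x y e) (G : CurveGD k B₀ B₁ B₀₁ K)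
    (hdeg : G.degree = 0) (n : ℕ) (h0 : P0 x n G) :
    Module.Finite K (sec x n G) ∧
      Module.finrank K (sec x n G) +
          Module.finrank k (GlueDatum.unit k (k ⊗[k] B₀) (k ⊗[k] B₁) (k ⊗[k] B₀₁)).H1 =
        n * Module.finrank k (B₁ ⧸ Ideal.span {y}) + 1 := by
  constructor
  · rw [H190.sec_eq_twistE_H0 hC n G]
    exact H10.finite_H0 hC (twistE x y hC.mul_eq_one G (n : ℤ))
  · have h := finrank_sec_add_genus hC G n h0
    rw [hdeg] at h
    have h' : ((Module.finrank K (sec x n G) +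
        Module.finrank k (GlueDatum.unit k (k ⊗[k] B₀) (k ⊗[k] B₁) (k ⊗[k] B₀₁)).H1 : ℕ) : ℤ) =
        ((n * Module.finrank k (B₁ ⧸ Ideal.span {y}) + 1 : ℕ) : ℤ) := by
      push_cast
      linarith
    exact_mod_cast h'

end Degree

end Fermat.Agent.S25.H310
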