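import Fermat.Agent.S25.H310.UniversalKernel

/-!
# E2 (block CECH of row S25): universal kernel ⇒ projective direct summand

Final packaged statements.  `f : F →ₗ[A] F'`, `F` finitely generated, `F'` finitely presented and
flat (e.g. `F`, `F'` finitely generated free).  Hypothesis: for every `A`-algebra `B`
(only `B = A ⧸ J`, `J` a finitely generated ideal, is used) the natural map
`B ⊗ ker f → ker (B ⊗ f)` is onto.  Conclusions: see `E2` and `E2_free`.
-/

open TensorProduct

set_option autoImplicit false
set_option linter.style.haveILetI false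
set_option linter.unusedSimpArgs false

namespace Fermat.Agent.S25.H310

universe u v w

variable {A : Type u} [CommRing A] {F : Type v} {F' : Type w}
  [AddCommGroup F] [Module A F] [AddCommGroup F'] [Module A F']

/-- The tensor form of the kernel condition for the quotient rings `A ⧸ J` implies the elementary
form. -/
theorem kerCommutesModIdeals_of_baseChange_quotient (f : F →ₗ[A] F')
    (h : ∀ J : Ideal A, J.FG → ∀ z : (A ⧸ J) ⊗[A] F, f.baseChange (A ⧸ J) z = 0 →
      ∃ w : (A ⧸ J) ⊗[A] LinearMap.ker f, (LinearMap.ker f).subtype.baseChange (A ⧸ J) w = z) :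
    KerCommutesModIdeals f := by
  intro J hJ x hx
  -- the element `1 ⊗ x` is killed by `f ⊗ 1`
  have hz : f.baseChange (A ⧸ J) ((Ideal.Quotient.mk J 1) ⊗ₜ[A] x) = 0 := by
    rw [LinearMap.baseChange_tmul]
    apply (quotTensorEquivQuotSMul F' J).injective
    rw [quotTensorEquivQuotSMul_mk_tmul, map_zero, one_smul]
    exact (Submodule.Quotient.mk_eq_zero _).mpr hx
  obtain ⟨w, hw⟩ := h J hJ _ hz
  -- images of `(A ⧸ J) ⊗ ker f` in `F ⧸ J F` come from `ker f`
  have key : ∀ w : (A ⧸ J) ⊗[A] LinearMap.ker f,
      quotTensorEquivQuotSMul F J ((LinearMap.ker f).subtype.baseChange (A ⧸ J) w) ∈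
        Submodule.map (J • (⊤ : Submodule A F)).mkQ (LinearMap.ker f) := by
    intro w
    induction w using TensorProduct.induction_on with
    | zero => simp
    | tmul b k =>
      obtain ⟨a, rfl⟩ := Ideal.Quotient.mk_surjective b
      rw [LinearMap.baseChange_tmul, quotTensorEquivQuotSMul_mk_tmul]
      exact ⟨a • (k : F), (LinearMap.ker f).smul_mem a k.2, rfl⟩
    | add w₁ w₂ h₁ h₂ =>
      rw [map_add, map_add]
      exact Submodule.add_mem _ h₁ h₂
  have h1 := key w
  rw [hw, quotTensorEquivQuotSMul_mk_tmul, one_smul] at h1
  obtain ⟨k, hk, hkx⟩ := h1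
  have h2 : k - x ∈ (J • ⊤ : Submodule A F) := by
    rw [← Submodule.Quotient.mk_eq_zero, Submodule.Quotient.mk_sub, sub_eq_zero]
    exact hkx
  have h3 : x = k + (x - k) := by abel
  rw [h3]
  refine Submodule.add_mem_sup hk ?_
  have : x - k = -(k - x) := by abel
  rw [this]
  exact Submodule.neg_mem _ h2

/-- The tensor form of the kernel condition, for all algebras in the universe of `A`, implies the
elementary form. -/
theorem kerCommutesModIdeals_of_forall_algebra (f : F →ₗ[A] F')
    (h : ∀ (B : Type u) [CommRing B] [Algebra A B],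
      LinearMap.ker (f.baseChange B) ≤ LinearMap.range ((LinearMap.ker f).subtype.baseChange B)) :
    KerCommutesModIdeals f :=
  kerCommutesModIdeals_of_baseChange_quotient f (fun J _ _ hz => h (A ⧸ J) hz)

/-- **E2.**  Let `f : F →ₗ[A] F'` with `F` finitely generated and `F'` finitely presented and
flat.  Assume that for every `A`-algebra `B` the natural map `B ⊗ ker f → ker (B ⊗ f)` is onto.
Then `f` has a generalized inverse `t` (`f ∘ t ∘ f = f`); consequently `ker f` is a finitely
generated direct summand of `F`, `coker f` is flat, finitely presented and projective, and the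
formation of `ker f` commutes with all base changes. -/
theorem E2 [Module.Finite A F] [Module.FinitePresentation A F'] [Module.Flat A F']
    (f : F →ₗ[A] F')
    (h : ∀ (B : Type u) [CommRing B] [Algebra A B],
      LinearMap.ker (f.baseChange B) ≤ LinearMap.range ((LinearMap.ker f).subtype.baseChange B)) :
    (∃ t : F' →ₗ[A] F, f ∘ₗ t ∘ₗ f = f) ∧
    Module.Finite A (LinearMap.ker f) ∧
    (∃ r : F →ₗ[A] LinearMap.ker f, r ∘ₗ (LinearMap.ker f).subtype = LinearMap.id) ∧
    (∃ C : Submodule A F, IsCompl (LinearMap.ker f) C) ∧
    Module.Flat A (F' ⧸ LinearMap.range f) ∧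
    Module.FinitePresentation A (F' ⧸ LinearMap.range f) ∧
    Module.Projective A (F' ⧸ LinearMap.range f) ∧
    Module.Projective A (LinearMap.range f) ∧
    (∃ C' : Submodule A F', IsCompl (LinearMap.range f) C') := by
  have hk := kerCommutesModIdeals_of_forall_algebra f h
  obtain ⟨t, ht⟩ := exists_isGeneralizedInverse hk
  haveI : Module.Projective A F' := Module.Flat.projective_of_finitePresentation
  exact ⟨⟨t, ht⟩, ht.finite_ker, ⟨ht.kerRetraction, ht.kerRetraction_comp_subtype⟩,
    ⟨_, ht.ker_isCompl⟩, flat_coker_of_kerCommutesModIdeals hk, finitePresentation_coker f,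
    projective_coker_of_kerCommutesModIdeals hk, ht.projective_range, ⟨_, ht.range_isCompl⟩⟩

/-- **E2, base change part.**  In the situation of `E2` the formation of `ker f` commutes with
every base change `A → B` (`B` in any universe): `B ⊗ ker f → B ⊗ F` is injective with image
`ker (B ⊗ f)`. -/
theorem E2_baseChange [Module.Finite A F] [Module.FinitePresentation A F'] [Module.Flat A F']
    (f : F →ₗ[A] F')
    (h : ∀ (B : Type u) [CommRing B] [Algebra A B],
      LinearMap.ker (f.baseChange B) ≤ LinearMap.range ((LinearMap.ker f).subtype.baseChange B))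
    (B : Type*) [CommRing B] [Algebra A B] :
    Function.Injective ((LinearMap.ker f).subtype.baseChange B) ∧
      LinearMap.ker (f.baseChange B) =
        LinearMap.range ((LinearMap.ker f).subtype.baseChange B) := by
  obtain ⟨t, ht⟩ := exists_isGeneralizedInverse (kerCommutesModIdeals_of_forall_algebra f h)
  exact ⟨ht.baseChange_subtype_injective B, ht.ker_baseChange B⟩

/-- `ker f` is projective in the situation of `E2` when `F` is projective. -/
theorem E2_projective_ker [Module.Finite A F] [Module.Projective A F]
    [Module.FinitePresentation A F'] [Module.Flat A F'] (f : F →ₗ[A] F')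
    (h : ∀ (B : Type u) [CommRing B] [Algebra A B],
      LinearMap.ker (f.baseChange B) ≤ LinearMap.range ((LinearMap.ker f).subtype.baseChange B)) :
    Module.Projective A (LinearMap.ker f) := by
  obtain ⟨t, ht⟩ := exists_isGeneralizedInverse (kerCommutesModIdeals_of_forall_algebra f h)
  exact ht.projective_ker

/-- **E2 for finitely generated free modules** (the form of the S25 board):
`ker f` is finitely generated projective and a direct summand; `coker f` is finitely presented
and flat (hence projective). -/
theorem E2_free [Module.Finite A F] [Module.Free A F] [Module.Finite A F'] [Module.Free A F']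
    (f : F →ₗ[A] F')
    (h : ∀ (B : Type u) [CommRing B] [Algebra A B],
      LinearMap.ker (f.baseChange B) ≤ LinearMap.range ((LinearMap.ker f).subtype.baseChange B)) :
    Module.Finite A (LinearMap.ker f) ∧ Module.Projective A (LinearMap.ker f) ∧
    (∃ C : Submodule A F, IsCompl (LinearMap.ker f) C) ∧
    Module.FinitePresentation A (F' ⧸ LinearMap.range f) ∧
    Module.Flat A (F' ⧸ LinearMap.range f) ∧
    Module.Projective A (F' ⧸ LinearMap.range f) := by
  haveI : Module.FinitePresentation A F' := Module.finitePresentation_of_projective A F'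
  obtain ⟨_, h2, _, h4, h5, h6, h7, _⟩ := E2 f h
  exact ⟨h2, E2_projective_ker f h, h4, h6, h5, h7⟩

end Fermat.Agent.S25.H310
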