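import Mathlib

/-!
# Flatness of a quotient of a flat module (ideal criterion)

For a submodule `N` of a flat module `P` over a commutative ring `A`, the quotient `P ⧸ N` is
flat as soon as `N ⊓ I • ⊤ ≤ I • N` for every finitely generated ideal `I`
(i.e. `Tor₁(A ⧸ I, P ⧸ N) = 0`).  The converse also holds.
-/

open TensorProduct

set_option autoImplicit false

namespace Fermat.Agent.S25.H310

universe u v

variable {A : Type u} [CommRing A]

/-- The multiplication map `I ⊗ M → M`. -/
noncomputable abbrev idealMul (I : Ideal A) (M : Type v) [AddCommGroup M] [Module A M] :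
    (I ⊗[A] M) →ₗ[A] M :=
  TensorProduct.lift ((LinearMap.lsmul A M).comp I.subtype)

theorem idealMul_tmul (I : Ideal A) (M : Type v) [AddCommGroup M] [Module A M] (r : I) (m : M) :
    idealMul I M (r ⊗ₜ m) = (r : A) • m := by
  simp [idealMul]

theorem idealMul_naturality (I : Ideal A) {M M' : Type v} [AddCommGroup M] [Module A M]
    [AddCommGroup M'] [Module A M'] (g : M →ₗ[A] M') (z : I ⊗[A] M) :
    g (idealMul I M z) = idealMul I M' (LinearMap.lTensor I g z) := by
  induction z using TensorProduct.induction_on with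
  | zero => simp
  | tmul r m => simp [idealMul]
  | add x y hx hy => simp only [map_add, hx, hy]

theorem exists_idealMul_eq_of_mem_smul (I : Ideal A) {P : Type v} [AddCommGroup P] [Module A P]
    (N : Submodule A P) {y : P} (hy : y ∈ I • N) :
    ∃ w : I ⊗[A] N, idealMul I P (LinearMap.lTensor I N.subtype w) = y := by
  induction hy using Submodule.smul_induction_on' with
  | smul r hr n hn =>
    refine ⟨(⟨r, hr⟩ : I) ⊗ₜ (⟨n, hn⟩ : N), ?_⟩
    simp [idealMul]
  | add x hx y hy hx' hy' =>
    obtain ⟨w₁, h₁⟩ := hx'
    obtain ⟨w₂, h₂⟩ := hy'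
    exact ⟨w₁ + w₂, by simp only [map_add, h₁, h₂]⟩

theorem idealMul_mem_smul_top (I : Ideal A) {P : Type v} [AddCommGroup P] [Module A P]
    (z : I ⊗[A] P) : idealMul I P z ∈ (I • ⊤ : Submodule A P) := by
  induction z using TensorProduct.induction_on with
  | zero => simp
  | tmul r m =>
    rw [idealMul_tmul]
    exact Submodule.smul_mem_smul r.2 Submodule.mem_top
  | add x y hx hy =>
    rw [map_add]
    exact Submodule.add_mem _ hx hy

/-- **Ideal criterion for flatness of a quotient.**  If `P` is flat and `N ⊓ I P ≤ I N` for all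
finitely generated ideals `I`, then `P ⧸ N` is flat. -/
theorem flat_quotient_of_inf_smul_le {P : Type v} [AddCommGroup P] [Module A P]
    [Module.Flat A P] (N : Submodule A P)
    (h : ∀ I : Ideal A, I.FG → N ⊓ (I • ⊤ : Submodule A P) ≤ I • N) :
    Module.Flat A (P ⧸ N) := by
  rw [Module.Flat.iff_lift_lsmul_comp_subtype_injective]
  intro I hI
  have hP : Function.Injective (idealMul I P) :=
    Module.Flat.iff_lift_lsmul_comp_subtype_injective.mp inferInstance hI
  rw [injective_iff_map_eq_zero]
  intro z hz
  obtain ⟨z', rfl⟩ := LinearMap.lTensor_surjective I (Submodule.mkQ_surjective N) z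
  have h1 : N.mkQ (idealMul I P z') = 0 := by
    rw [idealMul_naturality]
    exact hz
  have h2 : idealMul I P z' ∈ N := by
    simpa using h1
  have h3 : idealMul I P z' ∈ I • N := h I hI ⟨h2, idealMul_mem_smul_top I z'⟩
  obtain ⟨w, hw⟩ := exists_idealMul_eq_of_mem_smul I N h3
  have h4 : z' = LinearMap.lTensor I N.subtype w := hP hw.symm
  rw [h4, ← LinearMap.lTensor_comp_apply]
  have h5 : N.mkQ ∘ₗ N.subtype = 0 := by
    ext x
    simp
  rw [h5, LinearMap.lTensor_zero, LinearMap.zero_apply]

end Fermat.Agent.S25.H310
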