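/-
S25, blocks GDC / DEGREE (helper310): base change of gluing data is base change of Čech complexes.

For a `k`-algebra map `A → A'` and gluing data `G` over `A`, `G'` over `A'` on a curve chart with
`CurveGD.IsBC φ G G'`, the semilinear base-change maps `b₀, b₁, b₀₁` (base changes along
`A ⊗ B → A' ⊗ B`) are base changes along `A → A'` (`A' ⊗[k] B = A' ⊗[A] (A ⊗[k] B)` is a pushout):
`A' ⊗[A] G.N₀ ≃ₗ[A'] G'.N₀`, etc.  These equivalences intertwine the restriction maps, the
multiplication operators and the Čech differentials; hence `Ȟ¹` commutes with every base change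
and `Ȟ⁰` with every flat base change.
-/
import Fermat.Agent.S25.DefsAlg

set_option autoImplicit false

namespace Fermat.Agent.S25.H310

open TensorProduct Fermat.Agent.S25

universe u

/-! ### The abstract pushout lemma -/

section Core

variable {A A' R R' : Type*} [CommRing A] [CommRing A'] [CommRing R] [CommRing R']
  [Algebra A A'] [Algebra A R] [Algebra A R'] [Algebra A' R'] [Algebra R R']
  [IsScalarTower A A' R'] [IsScalarTower A R R'] [Algebra.IsPushout A A' R R']
  {N N' : Type*} [AddCommGroup N] [AddCommGroup N'] [Module A N] [Module R N]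
  [IsScalarTower A R N] [Module A N'] [Module A' N'] [Module R N'] [Module R' N']
  [IsScalarTower A A' N'] [IsScalarTower A R N'] [IsScalarTower A' R' N']
  [IsScalarTower R R' N']

/-- If `R' = A' ⊗[A] R` and `N' = R' ⊗[R] N` then `N' = A' ⊗[A] N`. -/
theorem isBaseChange_of_isPushout {f : N →ₗ[R] N'} (hf : IsBaseChange R' f) :
    IsBaseChange A' (f.restrictScalars A) := by
  refine IsBaseChange.of_equiv
    ((Algebra.IsPushout.cancelBaseChange A A' R R' N).symm ≪≫ₗ
      (hf.equiv.restrictScalars A')) (fun x => ?_)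
  simp [hf.equiv_tmul]

end Core

/-! ### Base change along `A ⊗[k] B → A' ⊗[k] B` -/

section TensorLeft

variable (k : Type u) [Field k] (A A' : Type u) [CommRing A] [Algebra k A] [CommRing A']
  [Algebra k A'] [Algebra A A'] [IsScalarTower k A A'] (B : Type u) [CommRing B] [Algebra k B]

/-- The ring map `A ⊗[k] B → A' ⊗[k] B` of an algebra `A → A'`. -/
abbrev tensorLeftHom : A ⊗[k] B →+* A' ⊗[k] B :=
  tensorMapLeft k (IsScalarTower.toAlgHom k A A') B

theorem tensorLeftHom_tmul (a : A) (b : B) :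
    tensorLeftHom k A A' B (a ⊗ₜ[k] b) = algebraMap A A' a ⊗ₜ[k] b := rfl

variable {k A A' B}
variable {N N' : Type u} [AddCommGroup N] [Module (A ⊗[k] B) N] [Module A N]
  [IsScalarTower A (A ⊗[k] B) N]
  [AddCommGroup N'] [Module (A' ⊗[k] B) N'] [Module A' N'] [IsScalarTower A' (A' ⊗[k] B) N']

/-- A semilinear base change along `A ⊗[k] B → A' ⊗[k] B` is a base change along `A → A'`:
the induced map `A' ⊗[A] N → N'` is an isomorphism. -/
theorem exists_semilinearBCEquiv (b : N →ₛₗ[tensorLeftHom k A A' B] N')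
    (hb : IsSemilinearBaseChange _ b) :
    ∃ e : A' ⊗[A] N ≃ₗ[A'] N', ∀ (a : A') (n : N), e (a ⊗ₜ[A] n) = a • b n := by
  let : Algebra (A ⊗[k] B) (A' ⊗[k] B) := (tensorLeftHom k A A' B).toAlgebra
  let : Module (A ⊗[k] B) N' := Module.compHom N' (tensorLeftHom k A A' B)
  let : Module A N' := Module.compHom N' (algebraMap A A')
  have : IsScalarTower (A ⊗[k] B) (A' ⊗[k] B) N' := ⟨fun r r' n => by
    change (tensorLeftHom k A A' B r * r') • n =
      tensorLeftHom k A A' B r • (r' • n)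
    rw [mul_smul]⟩
  have : IsScalarTower A A' N' := ⟨fun a a' n => by
    rw [Algebra.smul_def, mul_smul]
    rfl⟩
  have : IsScalarTower A (A ⊗[k] B) (A' ⊗[k] B) :=
    IsScalarTower.of_algebraMap_eq' (by
      ext a
      change algebraMap A A' a ⊗ₜ[k] (1 : B) = _
      rfl)
  have : IsScalarTower A (A ⊗[k] B) N' := ⟨fun a r n => by
    change tensorLeftHom k A A' B (a • r) • n =
      algebraMap A A' a • (tensorLeftHom k A A' B r • n)
    rw [← algebraMap_smul (A' ⊗[k] B) (algebraMap A A' a), ← mul_smul]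
    congr 1
    rw [Algebra.smul_def, map_mul]
    rfl⟩
  have : Algebra.IsPushout A A' (A ⊗[k] B) (A' ⊗[k] B) :=
    Algebra.IsPushout.tensorProduct_tensorProduct k B A A' (by
      ext b
      change Algebra.TensorProduct.map (IsScalarTower.toAlgHom k A A') (AlgHom.id k B)
        ((1 : A) ⊗ₜ[k] b) = (1 : A') ⊗ₜ[k] b
      simp)
  have key := isBaseChange_of_isPushout (A := A) (A' := A') (R := A ⊗[k] B) (R' := A' ⊗[k] B)
    (f := ({ toFun := fun n => b n
             map_add' := fun m n => b.map_add m n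
             map_smul' := fun r n => LinearMap.map_smulₛₗ b r n } : N →ₗ[A ⊗[k] B] N')) hb
  exact ⟨key.equiv, fun a n => key.equiv_tmul a n⟩

/-- The comparison isomorphism `A' ⊗[A] N ≃ N'` of a semilinear base change. -/
noncomputable def semilinearBCEquiv (b : N →ₛₗ[tensorLeftHom k A A' B] N')
    (hb : IsSemilinearBaseChange _ b) : A' ⊗[A] N ≃ₗ[A'] N' :=
  (exists_semilinearBCEquiv b hb).choose

@[simp] theorem semilinearBCEquiv_tmul (b : N →ₛₗ[tensorLeftHom k A A' B] N')
    (hb : IsSemilinearBaseChange _ b) (a : A') (n : N) :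
    semilinearBCEquiv b hb (a ⊗ₜ[A] n) = a • b n :=
  (exists_semilinearBCEquiv b hb).choose_spec a n

theorem semilinearBCEquiv_one_tmul (b : N →ₛₗ[tensorLeftHom k A A' B] N')
    (hb : IsSemilinearBaseChange _ b) (n : N) :
    semilinearBCEquiv b hb ((1 : A') ⊗ₜ[A] n) = b n := by
  rw [semilinearBCEquiv_tmul, one_smul]

/-- The comparison isomorphism intertwines multiplication by `r : A ⊗[k] B` with multiplication by
its image in `A' ⊗[k] B`. -/
theorem semilinearBCEquiv_smul (b : N →ₛₗ[tensorLeftHom k A A' B] N')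
    (hb : IsSemilinearBaseChange _ b) (r : A ⊗[k] B) (z : A' ⊗[A] N) :
    semilinearBCEquiv b hb ((Algebra.lsmul A A N r).baseChange A' z) =
      tensorLeftHom k A A' B r • semilinearBCEquiv b hb z := by
  induction z using TensorProduct.induction_on with
  | zero => simp
  | tmul a n =>
    rw [LinearMap.baseChange_tmul, semilinearBCEquiv_tmul, semilinearBCEquiv_tmul,
      Algebra.lsmul_coe, LinearMap.map_smulₛₗ, smul_comm]
  | add x y hx hy => simp only [map_add, hx, hy, smul_add]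

end TensorLeft

/-! ### Cokernels and base change (right exactness of the tensor product) -/

section Coker

variable {A : Type*} [CommRing A] (A' : Type*) [CommRing A'] [Algebra A A']
  {M N : Type*} [AddCommGroup M] [AddCommGroup N] [Module A M] [Module A N] (f : M →ₗ[A] N)

theorem ker_mkQ_baseChange :
    LinearMap.ker ((LinearMap.range f).mkQ.baseChange A') = LinearMap.range (f.baseChange A') := by
  have hex : Function.Exact f (LinearMap.range f).mkQ := by
    rw [LinearMap.exact_iff, Submodule.ker_mkQ]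
  have h := lTensor_exact A' hex (Submodule.mkQ_surjective _)
  ext z
  rw [LinearMap.mem_ker, LinearMap.mem_range]
  exact h z

theorem mkQ_baseChange_surjective :
    Function.Surjective ((LinearMap.range f).mkQ.baseChange A') :=
  LinearMap.lTensor_surjective A' (Submodule.mkQ_surjective _)

/-- The cokernel commutes with base change. -/
noncomputable def cokerBaseChangeEquiv :
    ((A' ⊗[A] N) ⧸ LinearMap.range (f.baseChange A')) ≃ₗ[A'] A' ⊗[A] (N ⧸ LinearMap.range f) :=
  (Submodule.quotEquivOfEq _ _ (ker_mkQ_baseChange A' f).symm) ≪≫ₗ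
    ((LinearMap.range f).mkQ.baseChange A').quotKerEquivOfSurjective
      (mkQ_baseChange_surjective A' f)

@[simp] theorem cokerBaseChangeEquiv_mk_tmul (a : A') (n : N) :
    cokerBaseChangeEquiv A' f (Submodule.Quotient.mk (a ⊗ₜ[A] n)) =
      a ⊗ₜ[A] (Submodule.Quotient.mk n) := rfl

end Coker

/-! ### Gluing data on a curve chart -/

section GD

variable {k : Type u} [Field k] {B₀ B₁ B₀₁ : Type u} [CommRing B₀] [CommRing B₁] [CommRing B₀₁]
  [Algebra k B₀] [Algebra k B₁] [Algebra k B₀₁] [Algebra B₀ B₀₁] [Algebra B₁ B₀₁]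
  [IsScalarTower k B₀ B₀₁] [IsScalarTower k B₁ B₀₁]
  {A A' : Type u} [CommRing A] [Algebra k A] [CommRing A'] [Algebra k A'] [Algebra A A']
  [IsScalarTower k A A']
  {G : CurveGD k B₀ B₁ B₀₁ A} {G' : CurveGD k B₀ B₁ B₀₁ A'}

/-- Base-change maps of gluing data along an algebra `A → A'`. -/
abbrev BCMaps (G : CurveGD k B₀ B₁ B₀₁ A) (G' : CurveGD k B₀ B₁ B₀₁ A') : Type u :=
  GlueDatum.BaseChangeMaps (tensorLeftHom k A A' B₀) (tensorLeftHom k A A' B₁)
    (tensorLeftHom k A A' B₀₁) G G'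

theorem nonempty_BCMaps_iff :
    Nonempty (BCMaps G G') ↔ CurveGD.IsBC (IsScalarTower.toAlgHom k A A') G G' := Iff.rfl

namespace BCMaps

variable (bm : BCMaps G G')

/-- `A' ⊗[A] N₀ ≃ N₀'`. -/
noncomputable def equiv₀ : A' ⊗[A] G.N₀ ≃ₗ[A'] G'.N₀ :=
  semilinearBCEquiv bm.b₀ bm.isBaseChange₀

/-- `A' ⊗[A] N₁ ≃ N₁'`. -/
noncomputable def equiv₁ : A' ⊗[A] G.N₁ ≃ₗ[A'] G'.N₁ :=
  semilinearBCEquiv bm.b₁ bm.isBaseChange₁

/-- `A' ⊗[A] N₀₁ ≃ N₀₁'`. -/
noncomputable def equiv₀₁ : A' ⊗[A] G.N₀₁ ≃ₗ[A'] G'.N₀₁ :=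
  semilinearBCEquiv bm.b₀₁ bm.isBaseChange₀₁

@[simp] theorem equiv₀_tmul (a : A') (n : G.N₀) : bm.equiv₀ (a ⊗ₜ[A] n) = a • bm.b₀ n :=
  semilinearBCEquiv_tmul _ _ a n

@[simp] theorem equiv₁_tmul (a : A') (n : G.N₁) : bm.equiv₁ (a ⊗ₜ[A] n) = a • bm.b₁ n :=
  semilinearBCEquiv_tmul _ _ a n

@[simp] theorem equiv₀₁_tmul (a : A') (n : G.N₀₁) : bm.equiv₀₁ (a ⊗ₜ[A] n) = a • bm.b₀₁ n :=
  semilinearBCEquiv_tmul _ _ a n

theorem equiv₀_smul (r : A ⊗[k] B₀) (z : A' ⊗[A] G.N₀) :
    bm.equiv₀ ((Algebra.lsmul A A G.N₀ r).baseChange A' z) =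
      tensorLeftHom k A A' B₀ r • bm.equiv₀ z :=
  semilinearBCEquiv_smul _ _ r z

theorem equiv₁_smul (r : A ⊗[k] B₁) (z : A' ⊗[A] G.N₁) :
    bm.equiv₁ ((Algebra.lsmul A A G.N₁ r).baseChange A' z) =
      tensorLeftHom k A A' B₁ r • bm.equiv₁ z :=
  semilinearBCEquiv_smul _ _ r z

theorem equiv₀₁_smul (r : A ⊗[k] B₀₁) (z : A' ⊗[A] G.N₀₁) :
    bm.equiv₀₁ ((Algebra.lsmul A A G.N₀₁ r).baseChange A' z) =
      tensorLeftHom k A A' B₀₁ r • bm.equiv₀₁ z :=
  semilinearBCEquiv_smul _ _ r z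

/-- The comparison isomorphisms intertwine the restriction maps `r₀`. -/
theorem equiv₀₁_r₀ (z : A' ⊗[A] G.N₀) :
    bm.equiv₀₁ ((G.r₀.restrictScalars A).baseChange A' z) = G'.r₀ (bm.equiv₀ z) := by
  induction z using TensorProduct.induction_on with
  | zero => simp
  | tmul a n =>
    rw [LinearMap.baseChange_tmul, equiv₀₁_tmul, equiv₀_tmul, LinearMap.restrictScalars_apply,
      bm.comm₀, LinearMap.map_smul_of_tower]
  | add x y hx hy => simp only [map_add, hx, hy]

/-- The comparison isomorphisms intertwine the restriction maps `r₁`. -/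
theorem equiv₀₁_r₁ (z : A' ⊗[A] G.N₁) :
    bm.equiv₀₁ ((G.r₁.restrictScalars A).baseChange A' z) = G'.r₁ (bm.equiv₁ z) := by
  induction z using TensorProduct.induction_on with
  | zero => simp
  | tmul a n =>
    rw [LinearMap.baseChange_tmul, equiv₀₁_tmul, equiv₁_tmul, LinearMap.restrictScalars_apply,
      bm.comm₁, LinearMap.map_smul_of_tower]
  | add x y hx hy => simp only [map_add, hx, hy]

/-- `A' ⊗[A] (N₀ × N₁) ≃ N₀' × N₁'`. -/
noncomputable def equivProd : A' ⊗[A] (G.N₀ × G.N₁) ≃ₗ[A'] (G'.N₀ × G'.N₁) :=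
  TensorProduct.prodRight A A' A' G.N₀ G.N₁ ≪≫ₗ bm.equiv₀.prodCongr bm.equiv₁

@[simp] theorem equivProd_tmul (a : A') (p : G.N₀ × G.N₁) :
    bm.equivProd (a ⊗ₜ[A] p) = (a • bm.b₀ p.1, a • bm.b₁ p.2) := by
  simp [equivProd]

/-- **The Čech differential of a base change is the base change of the Čech differential.** -/
theorem cech_comp_equivProd :
    G'.cech ∘ₗ bm.equivProd.toLinearMap = bm.equiv₀₁.toLinearMap ∘ₗ G.cech.baseChange A' := by
  refine LinearMap.ext fun z => ?_
  induction z using TensorProduct.induction_on with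
  | zero => simp
  | tmul a p =>
    have h0 := bm.equiv₀₁_r₀ (a ⊗ₜ[A] p.1)
    have h1 := bm.equiv₀₁_r₁ (a ⊗ₜ[A] p.2)
    rw [LinearMap.baseChange_tmul, equiv₀_tmul] at h0
    rw [LinearMap.baseChange_tmul, equiv₁_tmul] at h1
    simp only [LinearMap.comp_apply, LinearEquiv.coe_coe, equivProd_tmul,
      LinearMap.baseChange_tmul]
    simp only [GlueDatum.cech, LinearMap.coprod_apply, LinearMap.neg_apply,
      LinearMap.restrictScalars_apply, tmul_add, tmul_neg, map_add, map_neg] at h0 h1 ⊢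
    rw [← h0, ← h1]
  | add x y hx hy => simp only [map_add, hx, hy]

theorem cech_equivProd (z : A' ⊗[A] (G.N₀ × G.N₁)) :
    G'.cech (bm.equivProd z) = bm.equiv₀₁ (G.cech.baseChange A' z) :=
  LinearMap.congr_fun bm.cech_comp_equivProd z

end BCMaps

end GD

end Fermat.Agent.S25.H310
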