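/-
S25, block GDC (helper310): the open inputs `BCId`, `BCComp`, `DegIso` of the row assembly, in
the EXACT forms of `H687/DDDefs.lean`.
-/
import Fermat.Agent.S25.H687.DDDefs
import Fermat.Agent.S25.H327.DictDegDefs
import Fermat.Agent.S25.H371.SemilinearBC
import Fermat.Agent.S25.H310.DegreeInvariance

set_option autoImplicit false

universe u

open scoped TensorProduct

namespace Fermat.Agent.S25.H310

open Fermat.Agent.S25

variable {k : Type u} [Field k]

section Comp

variable {A A' A'' : Type u} [CommRing A] [Algebra k A] [CommRing A'] [Algebra k A']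
  [CommRing A''] [Algebra k A'']

theorem tensorMapLeft_comp_apply (φ : A →ₐ[k] A') (ψ : A' →ₐ[k] A'') (B : Type u) [CommRing B]
    [Algebra k B] (r : A ⊗[k] B) :
    tensorMapLeft k (ψ.comp φ) B r = tensorMapLeft k ψ B (tensorMapLeft k φ B r) := by
  induction r using TensorProduct.induction_on with
  | zero => simp
  | tmul a b => rfl
  | add x y hx hy => simp only [map_add, hx, hy]

/-- Composite of semilinear maps along `tensorMapLeft`. -/
def tensorSemilinearComp (φ : A →ₐ[k] A') (ψ : A' →ₐ[k] A'') {B : Type u} [CommRing B]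
    [Algebra k B] {N N' N'' : Type u} [AddCommGroup N] [Module (A ⊗[k] B) N]
    [AddCommGroup N'] [Module (A' ⊗[k] B) N'] [AddCommGroup N''] [Module (A'' ⊗[k] B) N'']
    (b : N →ₛₗ[tensorMapLeft k φ B] N') (c : N' →ₛₗ[tensorMapLeft k ψ B] N'') :
    N →ₛₗ[tensorMapLeft k (ψ.comp φ) B] N'' where
  toFun n := c (b n)
  map_add' m n := by rw [map_add, map_add]
  map_smul' r n := by
    rw [LinearMap.map_smulₛₗ, LinearMap.map_smulₛₗ, tensorMapLeft_comp_apply]

theorem isSemilinearBaseChange_tensorSemilinearComp (φ : A →ₐ[k] A') (ψ : A' →ₐ[k] A'')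
    {B : Type u} [CommRing B] [Algebra k B] {N N' N'' : Type u} [AddCommGroup N]
    [Module (A ⊗[k] B) N] [AddCommGroup N'] [Module (A' ⊗[k] B) N'] [AddCommGroup N'']
    [Module (A'' ⊗[k] B) N'']
    (b : N →ₛₗ[tensorMapLeft k φ B] N') (c : N' →ₛₗ[tensorMapLeft k ψ B] N'')
    (hb : IsSemilinearBaseChange _ b) (hc : IsSemilinearBaseChange _ c) :
    IsSemilinearBaseChange _ (tensorSemilinearComp φ ψ b c) :=
  H371.isSemilinearBaseChange_comp _ _ _ (tensorMapLeft_comp_apply φ ψ B) b c _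
    (fun _ => rfl) hb hc

end Comp

variable (k) (B₀ B₁ B₀₁ : Type u) [CommRing B₀] [CommRing B₁] [CommRing B₀₁]
  [Algebra k B₀] [Algebra k B₁] [Algebra k B₀₁] [Algebra B₀ B₀₁] [Algebra B₁ B₀₁]
  [IsScalarTower k B₀ B₀₁] [IsScalarTower k B₁ B₀₁]

/-- GDC: every gluing datum is a base change of itself along the identity. -/
theorem bcId : H687.BCId k B₀ B₁ B₀₁ :=
  fun _ _ _ G => H327.CurveGD.isBC_id G

/-- GDC: base changes compose. -/
theorem bcComp : H687.BCComp k B₀ B₁ B₀₁ := by
  intro A A' A'' _ _ _ _ _ _ φ ψ G G' G'' h h'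
  obtain ⟨bm⟩ := h
  obtain ⟨bm'⟩ := h'
  exact ⟨{ b₀ := tensorSemilinearComp φ ψ bm.b₀ bm'.b₀
           b₁ := tensorSemilinearComp φ ψ bm.b₁ bm'.b₁
           b₀₁ := tensorSemilinearComp φ ψ bm.b₀₁ bm'.b₀₁
           comm₀ := fun s => by
             change bm'.b₀₁ (bm.b₀₁ (G.r₀ s)) = G''.r₀ (bm'.b₀ (bm.b₀ s))
             rw [bm.comm₀, bm'.comm₀]
           comm₁ := fun s => by
             change bm'.b₀₁ (bm.b₀₁ (G.r₁ s)) = G''.r₁ (bm'.b₁ (bm.b₁ s))
             rw [bm.comm₁, bm'.comm₁]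
           isBaseChange₀ := isSemilinearBaseChange_tensorSemilinearComp φ ψ _ _
             bm.isBaseChange₀ bm'.isBaseChange₀
           isBaseChange₁ := isSemilinearBaseChange_tensorSemilinearComp φ ψ _ _
             bm.isBaseChange₁ bm'.isBaseChange₁
           isBaseChange₀₁ := isSemilinearBaseChange_tensorSemilinearComp φ ψ _ _
             bm.isBaseChange₀₁ bm'.isBaseChange₀₁ }⟩

/-- GDC: over a field, isomorphic gluing data have the same degree. -/
theorem degIso : H687.DegIso k B₀ B₁ B₀₁ :=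
  fun _ _ _ _ _ h => degree_eq_of_isIso h

end Fermat.Agent.S25.H310
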