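import Mathlib

/-!
# H4 (part 1): maps and isomorphisms lift along nilpotent thickenings

`R → S` is a surjective ring homomorphism (given as `[Algebra R S]`) whose kernel `I` is a
nilpotent ideal.  We prove

* `eq_top_of_sup_smul_top`: Nakayama for nilpotent ideals (no finiteness needed);
* `one_tmul_eq_zero_iff`: `1 ⊗ m = 0` in `S ⊗ M` iff `m ∈ I M`;
* `bijective_of_baseChange_bijective`: a map into a projective module which becomes bijective
  after `S ⊗ -` is bijective;
* `exists_lift_linearMap`, `exists_lift_linearEquiv`: maps / isomorphisms between the base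
  changes of projective modules lift.
-/

open TensorProduct

set_option autoImplicit false
set_option linter.style.haveILetI false
set_option linter.unusedSectionVars false

namespace Fermat.Agent.S25.H310

universe u v w w'

/-- `R → S` is surjective with nilpotent kernel. -/
structure IsNilThickening (R : Type u) (S : Type v) [CommRing R] [CommRing S] [Algebra R S] :
    Prop where
  surj : Function.Surjective (algebraMap R S)
  nil : ∃ n : ℕ, (RingHom.ker (algebraMap R S)) ^ n = ⊥

theorem isNilThickening_quotient {R : Type u} [CommRing R] (I : Ideal R) {n : ℕ}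
    (hI : I ^ n = ⊥) : IsNilThickening R (R ⧸ I) where
  surj := Ideal.Quotient.mk_surjective
  nil := ⟨n, by rw [Ideal.Quotient.algebraMap_eq, Ideal.mk_ker, hI]⟩

section Nakayama

variable {R : Type u} [CommRing R] {M : Type w} [AddCommGroup M] [Module R M]

/-- Nakayama's lemma for a nilpotent ideal: no finiteness hypothesis is needed. -/
theorem eq_top_of_sup_smul_top (I : Ideal R) {n : ℕ} (hI : I ^ n = ⊥) (N : Submodule R M)
    (h : N ⊔ I • (⊤ : Submodule R M) = ⊤) : N = ⊤ := by
  have key : ∀ k : ℕ, (⊤ : Submodule R M) ≤ N ⊔ (I ^ k) • (⊤ : Submodule R M) := by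
    intro k
    induction k with
    | zero => simp
    | succ k ih =>
      calc (⊤ : Submodule R M) = N ⊔ I • (⊤ : Submodule R M) := h.symm
        _ ≤ N ⊔ I • (N ⊔ (I ^ k) • (⊤ : Submodule R M)) :=
            sup_le_sup_left (Submodule.smul_mono (le_refl I) ih) N
        _ = N ⊔ (I • N ⊔ I • ((I ^ k) • (⊤ : Submodule R M))) := by rw [Submodule.smul_sup]
        _ ≤ N ⊔ (I ^ (k + 1)) • (⊤ : Submodule R M) := by
            refine sup_le le_sup_left (sup_le ?_ ?_)
            · exact le_trans Submodule.smul_le_right le_sup_left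
            · rw [← Submodule.mul_smul, ← pow_succ']
              exact le_sup_right
  have h2 := key n
  rw [hI, Submodule.bot_smul, sup_bot_eq] at h2
  exact top_le_iff.mp h2

theorem subsingleton_of_smul_top_eq_top (I : Ideal R) {n : ℕ} (hI : I ^ n = ⊥)
    (h : I • (⊤ : Submodule R M) = ⊤) : Subsingleton M := by
  have h1 : (⊥ : Submodule R M) = ⊤ := eq_top_of_sup_smul_top I hI ⊥ (by rw [bot_sup_eq, h])
  exact Submodule.subsingleton_iff R |>.mp (subsingleton_of_bot_eq_top h1)

end Nakayama

section BaseChange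

variable {R : Type u} {S : Type v} [CommRing R] [CommRing S] [Algebra R S]
variable {M : Type w} [AddCommGroup M] [Module R M]

/-- For surjective `R → S` with kernel `I`: `1 ⊗ m = 0` in `S ⊗ M` iff `m ∈ I M`. -/
theorem one_tmul_eq_zero_iff (hs : Function.Surjective (algebraMap R S)) (m : M) :
    (1 : S) ⊗ₜ[R] m = 0 ↔ m ∈ (RingHom.ker (algebraMap R S)) • (⊤ : Submodule R M) := by
  have hs' : Function.Surjective (Algebra.ofId R S) := hs
  let e : (R ⧸ RingHom.ker (Algebra.ofId R S)) ≃ₐ[R] S :=
    Ideal.quotientKerAlgEquivOfSurjective hs'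
  let E : S ⊗[R] M ≃ₗ[R] M ⧸ (RingHom.ker (Algebra.ofId R S)) • (⊤ : Submodule R M) :=
    (TensorProduct.congr e.toLinearEquiv (LinearEquiv.refl R M)).symm ≪≫ₗ
      quotTensorEquivQuotSMul M _
  have hE : E ((1 : S) ⊗ₜ[R] m) = Submodule.Quotient.mk m := by
    have h1 : e.toLinearEquiv.symm (1 : S) = Ideal.Quotient.mk _ 1 := by
      show e.symm 1 = _
      rw [map_one, map_one]
    show quotTensorEquivQuotSMul M _
      ((TensorProduct.congr e.toLinearEquiv (LinearEquiv.refl R M)).symm ((1 : S) ⊗ₜ[R] m)) = _
    rw [TensorProduct.congr_symm_tmul, h1, LinearEquiv.refl_symm, LinearEquiv.refl_apply,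
      quotTensorEquivQuotSMul_mk_tmul, one_smul]
  have hker : RingHom.ker (Algebra.ofId R S) = RingHom.ker (algebraMap R S) := rfl
  rw [← hker, ← Submodule.Quotient.mk_eq_zero, ← hE]
  exact ⟨fun h => by rw [h, map_zero], fun h => E.injective (by rw [h, map_zero])⟩

variable {N : Type w'} [AddCommGroup N] [Module R N]

/-- A linear map which becomes surjective after base change along a nilpotent thickening is
surjective. -/
theorem surjective_of_baseChange_surjective (h : IsNilThickening R S) (φ : M →ₗ[R] N)
    (hφ : Function.Surjective (φ.baseChange S)) : Function.Surjective φ := by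
  obtain ⟨n, hn⟩ := h.nil
  rw [← LinearMap.range_eq_top]
  apply eq_top_of_sup_smul_top _ hn
  rw [eq_top_iff]
  intro q _
  obtain ⟨z, hz⟩ := hφ ((1 : S) ⊗ₜ[R] q)
  obtain ⟨p, rfl⟩ := TensorProduct.mk_surjective R M S h.surj z
  have h1 : (1 : S) ⊗ₜ[R] (q - φ p) = 0 := by
    rw [TensorProduct.tmul_sub, ← hz]
    simp
  have h2 := (one_tmul_eq_zero_iff h.surj (q - φ p)).mp h1
  have h3 : q = φ p + (q - φ p) := by abel
  rw [h3]
  exact Submodule.add_mem_sup (LinearMap.mem_range_self φ p) h2

/-- A linear map into a projective module which becomes bijective after base change along a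
nilpotent thickening is bijective. -/
theorem bijective_of_baseChange_bijective (h : IsNilThickening R S) [Module.Projective R N]
    (φ : M →ₗ[R] N) (hφ : Function.Bijective (φ.baseChange S)) : Function.Bijective φ := by
  have hsurj := surjective_of_baseChange_surjective h φ hφ.2
  refine ⟨?_, hsurj⟩
  obtain ⟨n, hn⟩ := h.nil
  -- a section of `φ`
  obtain ⟨s, hs⟩ := Module.projective_lifting_property φ (LinearMap.id : N →ₗ[R] N) hsurj
  -- the retraction onto the kernel
  let e : M →ₗ[R] LinearMap.ker φ := (LinearMap.id - s ∘ₗ φ).codRestrict _ (fun x => by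
    have := LinearMap.congr_fun hs (φ x)
    simp only [LinearMap.comp_apply, LinearMap.id_apply] at this
    rw [LinearMap.mem_ker]
    simp [this])
  have he : ∀ k : LinearMap.ker φ, e k = k := by
    intro k
    apply Subtype.ext
    have hk : φ (k : M) = 0 := k.2
    simp [e, hk]
  have hK : (RingHom.ker (algebraMap R S)) • (⊤ : Submodule R (LinearMap.ker φ)) = ⊤ := by
    rw [eq_top_iff]
    intro k _
    have h1 : (φ.baseChange S) ((1 : S) ⊗ₜ[R] (k : M)) = 0 := by
      rw [LinearMap.baseChange_tmul]
      have hk : φ (k : M) = 0 := k.2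
      rw [hk, TensorProduct.tmul_zero]
    have h2 : (1 : S) ⊗ₜ[R] (k : M) = 0 := hφ.1 (by rw [h1, map_zero])
    have h3 := (one_tmul_eq_zero_iff h.surj (k : M)).mp h2
    have h4 : e (k : M) ∈ Submodule.map e ((RingHom.ker (algebraMap R S)) • ⊤) :=
      Submodule.mem_map_of_mem h3
    rw [Submodule.map_smul'', he k] at h4
    exact Submodule.smul_mono (le_refl _) le_top h4
  haveI := subsingleton_of_smul_top_eq_top _ hn hK
  rw [← LinearMap.ker_eq_bot]
  exact Submodule.eq_bot_of_subsingleton

variable [Module.Projective R M]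

/-- Linear maps between base changes lift when the source is projective. -/
theorem exists_lift_linearMap (hs : Function.Surjective (algebraMap R S))
    (ψ : S ⊗[R] M →ₗ[S] S ⊗[R] N) : ∃ φ : M →ₗ[R] N, φ.baseChange S = ψ := by
  obtain ⟨φ, hφ⟩ := Module.projective_lifting_property (TensorProduct.mk R S N 1)
    ((ψ.restrictScalars R) ∘ₗ (TensorProduct.mk R S M 1)) (TensorProduct.mk_surjective R N S hs)
  refine ⟨φ, ?_⟩
  apply TensorProduct.AlgebraTensorModule.ext
  intro a m
  have h1 := LinearMap.congr_fun hφ m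
  simp only [LinearMap.comp_apply, TensorProduct.mk_apply, LinearMap.restrictScalars_apply] at h1
  rw [LinearMap.baseChange_tmul]
  have h2 : a ⊗ₜ[R] φ m = a • ((1 : S) ⊗ₜ[R] φ m) := by
    rw [TensorProduct.smul_tmul', smul_eq_mul, mul_one]
  have h3 : a ⊗ₜ[R] m = a • ((1 : S) ⊗ₜ[R] m) := by
    rw [TensorProduct.smul_tmul', smul_eq_mul, mul_one]
  rw [h2, h1, h3, map_smul]

/-- Isomorphisms between base changes of projective modules lift along nilpotent
thickenings. -/
theorem exists_lift_linearEquiv (h : IsNilThickening R S) [Module.Projective R N]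
    (ψ : S ⊗[R] M ≃ₗ[S] S ⊗[R] N) :
    ∃ φ : M ≃ₗ[R] N, (φ : M →ₗ[R] N).baseChange S = (ψ : S ⊗[R] M →ₗ[S] S ⊗[R] N) := by
  obtain ⟨φ, hφ⟩ := exists_lift_linearMap h.surj (ψ : S ⊗[R] M →ₗ[S] S ⊗[R] N)
  have hbij : Function.Bijective φ := by
    apply bijective_of_baseChange_bijective h
    rw [hφ]
    exact ψ.bijective
  exact ⟨LinearEquiv.ofBijective φ hbij, hφ⟩

/-- Any lift of an isomorphism is an isomorphism. -/
theorem bijective_of_baseChange_eq (h : IsNilThickening R S) [Module.Projective R N]
    (φ : M →ₗ[R] N) (ψ : S ⊗[R] M ≃ₗ[S] S ⊗[R] N)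
    (hφ : φ.baseChange S = (ψ : S ⊗[R] M →ₗ[S] S ⊗[R] N)) : Function.Bijective φ := by
  apply bijective_of_baseChange_bijective h
  rw [hφ]
  exact ψ.bijective

end BaseChange

end Fermat.Agent.S25.H310
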