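import Fermat.Agent.S25.H310.LiftProjective

/-!
# H4 (part 3): invertible modules lift along nilpotent thickenings

`R → S` surjective with nilpotent kernel.

* `invertible_of_baseChange`: a finitely generated projective `R`-module `P` with `S ⊗[R] P`
  invertible is invertible;
* `exists_lift_invertible`: every invertible `S`-module is `S ⊗[R] P` with `P` invertible;
* `exists_linearEquiv_of_baseChange`: invertible (or f.g. projective) `R`-modules with isomorphic
  base changes are isomorphic, the isomorphism lifting the given one.
-/

open TensorProduct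

set_option autoImplicit false
set_option linter.style.haveILetI false
set_option linter.unusedSectionVars false

namespace Fermat.Agent.S25.H310

universe u v w w'

variable {R : Type u} {S : Type v} [CommRing R] [CommRing S] [Algebra R S]

/-- A finitely generated projective module whose base change along a nilpotent thickening is
invertible is invertible. -/
theorem invertible_of_baseChange (h : IsNilThickening R S) (P : Type w) [AddCommGroup P]
    [Module R P] [Module.Projective R P] [Module.Invertible S (S ⊗[R] P)] :
    Module.Invertible R P := by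
  obtain ⟨Q, _, _, _, _, ⟨eQ⟩⟩ := exists_lift_projective h (Module.Dual S (S ⊗[R] P))
  let ψ : S ⊗[R] (P ⊗[R] Q) ≃ₗ[S] S ⊗[R] R :=
    TensorProduct.AlgebraTensorModule.distribBaseChange R S P Q ≪≫ₗ
      TensorProduct.congr (LinearEquiv.refl S (S ⊗[R] P)) eQ ≪≫ₗ
      TensorProduct.comm S _ _ ≪≫ₗ
      Module.Invertible.linearEquiv S (S ⊗[R] P) ≪≫ₗ
      (TensorProduct.AlgebraTensorModule.rid R S S).symm
  obtain ⟨φ, -⟩ := exists_lift_linearEquiv h ψ
  exact Module.Invertible.left φ

/-- **Lifting of invertible modules** along a nilpotent thickening. -/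
theorem exists_lift_invertible (h : IsNilThickening R S) (P' : Type w) [AddCommGroup P']
    [Module S P'] [Module.Invertible S P'] :
    ∃ (P : Type u) (_ : AddCommGroup P) (_ : Module R P) (_ : Module.Invertible R P),
      Nonempty (S ⊗[R] P ≃ₗ[S] P') := by
  obtain ⟨P, _, _, _, _, ⟨e⟩⟩ := exists_lift_projective h P'
  haveI : Module.Invertible S (S ⊗[R] P) := Module.Invertible.congr e.symm
  exact ⟨P, inferInstance, inferInstance, invertible_of_baseChange h P, ⟨e⟩⟩

/-- Invertible modules with isomorphic base changes along a nilpotent thickening are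
isomorphic, by an isomorphism lifting the given one. -/
theorem exists_linearEquiv_of_baseChange (h : IsNilThickening R S) {M : Type w} {N : Type w'}
    [AddCommGroup M] [Module R M] [AddCommGroup N] [Module R N] [Module.Invertible R M]
    [Module.Invertible R N] (ψ : S ⊗[R] M ≃ₗ[S] S ⊗[R] N) :
    ∃ φ : M ≃ₗ[R] N, (φ : M →ₗ[R] N).baseChange S = (ψ : S ⊗[R] M →ₗ[S] S ⊗[R] N) :=
  exists_lift_linearEquiv h ψ

/-- The square-zero case `R → R ⧸ I`, `I ^ 2 = ⊥`, of `exists_lift_invertible`. -/
theorem exists_lift_invertible_quotient (I : Ideal R) {n : ℕ} (hI : I ^ n = ⊥) (P' : Type w)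
    [AddCommGroup P'] [Module (R ⧸ I) P'] [Module.Invertible (R ⧸ I) P'] :
    ∃ (P : Type u) (_ : AddCommGroup P) (_ : Module R P) (_ : Module.Invertible R P),
      Nonempty ((R ⧸ I) ⊗[R] P ≃ₗ[R ⧸ I] P') :=
  exists_lift_invertible (isNilThickening_quotient I hI) P'

end Fermat.Agent.S25.H310
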