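import Fermat.Agent.S25.H310.LiftBasic

/-!
# H4 (part 2): finitely generated projective modules lift along nilpotent thickenings

`R → S` surjective with nilpotent kernel.  Every finitely generated projective `S`-module is
`S ⊗[R] P` for a finitely generated projective `R`-module `P` (in the universe of `R`).
-/

open TensorProduct

set_option autoImplicit false
set_option linter.style.haveILetI false
set_option linter.unusedSectionVars false

namespace Fermat.Agent.S25.H310

universe u v w

section Matrix

variable {R : Type u} [CommRing R] {n : ℕ}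

theorem matrix_pow_apply_mem (I : Ideal R) (M : Matrix (Fin n) (Fin n) R)
    (hM : ∀ i j, M i j ∈ I) (k : ℕ) : ∀ i j, (M ^ k) i j ∈ I ^ k := by
  induction k with
  | zero => intro i j; simp
  | succ k ih =>
    intro i j
    have hpow : M ^ (k + 1) = M ^ k * M := pow_succ M k
    rw [hpow, Matrix.mul_apply, pow_succ]
    exact Ideal.sum_mem _ (fun l _ => Ideal.mul_mem_mul (ih i l) (hM l j))

theorem matrix_isNilpotent_of_mem (I : Ideal R) {m : ℕ} (hI : I ^ m = ⊥)
    (M : Matrix (Fin n) (Fin n) R) (hM : ∀ i j, M i j ∈ I) : IsNilpotent M := by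
  refine ⟨m, ?_⟩
  ext i j
  have := matrix_pow_apply_mem I M hM m i j
  rw [hI] at this
  simpa using this

end Matrix

variable {R : Type u} {S : Type v} [CommRing R] [CommRing S] [Algebra R S]

/-- Idempotent matrices lift along nilpotent thickenings. -/
theorem exists_idempotent_matrix_lift (h : IsNilThickening R S) {n : ℕ}
    (E' : Matrix (Fin n) (Fin n) S) (hE' : E' * E' = E') :
    ∃ E : Matrix (Fin n) (Fin n) R, E * E = E ∧ E.map (algebraMap R S) = E' := by
  obtain ⟨m, hm⟩ := h.nil
  have hker : ∀ x ∈ RingHom.ker ((algebraMap R S).mapMatrix (m := Fin n)), IsNilpotent x := by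
    intro x hx
    apply matrix_isNilpotent_of_mem _ hm
    intro i j
    rw [RingHom.mem_ker] at hx ⊢
    have := congrFun (congrFun hx i) j
    simpa using this
  have hrange : E' ∈ ((algebraMap R S).mapMatrix (m := Fin n)).range := by
    refine ⟨Matrix.of fun i j => (h.surj (E' i j)).choose, ?_⟩
    ext i j
    simpa using (h.surj (E' i j)).choose_spec
  obtain ⟨E, hE, hEE'⟩ := exists_isIdempotentElem_eq_of_ker_isNilpotent _ hker E' hrange hE'
  exact ⟨E, hE, hEE'⟩

/-- **Lifting of finitely generated projective modules** along a nilpotent thickening. -/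
theorem exists_lift_projective (h : IsNilThickening R S) (P' : Type w) [AddCommGroup P']
    [Module S P'] [Module.Finite S P'] [Module.Projective S P'] :
    ∃ (P : Type u) (_ : AddCommGroup P) (_ : Module R P) (_ : Module.Finite R P)
      (_ : Module.Projective R P), Nonempty (S ⊗[R] P ≃ₗ[S] P') := by
  classical
  -- present `P'` as a retract of `S^n`
  obtain ⟨n, π, hπ⟩ := Module.Finite.exists_fin' S P'
  obtain ⟨s, hs⟩ := Module.projective_lifting_property π (LinearMap.id : P' →ₗ[S] P') hπ
  have hπs : ∀ y, π (s y) = y := fun y => LinearMap.congr_fun hs y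
  let E' : Matrix (Fin n) (Fin n) S := LinearMap.toMatrix' (s ∘ₗ π)
  have hE'lin : Matrix.toLin' E' = s ∘ₗ π := Matrix.toLin'_toMatrix' _
  have hE' : E' * E' = E' := by
    rw [← LinearMap.toMatrix'_comp]
    congr 1
    ext x
    simp [hπs]
  obtain ⟨E, hE, hEE'⟩ := exists_idempotent_matrix_lift h E' hE'
  -- the lifted module
  let P : Submodule R (Fin n → R) := LinearMap.range (Matrix.toLin' E)
  have hEfix : ∀ x : P, E.mulVec (x : Fin n → R) = x := by
    rintro ⟨_, y, rfl⟩
    simp only [Matrix.toLin'_apply, Matrix.mulVec_mulVec, hE]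
  let q : (Fin n → R) →ₗ[R] P := (Matrix.toLin' E).rangeRestrict
  have hq : ∀ x : P, q (x : Fin n → R) = x := by
    intro x
    apply Subtype.ext
    simpa [q] using hEfix x
  haveI : Module.Projective R P := Module.Projective.of_split P.subtype q (by
    ext x : 1
    exact hq x)
  haveI : Module.Finite R P := Module.Finite.of_surjective q (Matrix.toLin' E).surjective_rangeRestrict
  refine ⟨P, inferInstance, inferInstance, inferInstance, inferInstance, ⟨?_⟩⟩
  -- the comparison map
  letI : Module R P' := Module.compHom P' (algebraMap R S)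
  haveI : IsScalarTower R S P' := IsScalarTower.of_compHom R S P'
  let red : (Fin n → R) →ₗ[R] (Fin n → S) :=
    { toFun := fun x => (algebraMap R S) ∘ x
      map_add' := fun x y => by ext i; simp
      map_smul' := fun a x => by
        ext i
        simp [Algebra.smul_def] }
  have hred : ∀ x : Fin n → R, E'.mulVec (red x) = red (E.mulVec x) := by
    intro x
    ext i
    have := RingHom.map_mulVec (algebraMap R S) E x i
    rw [hEE'] at this
    exact this.symm
  let ρ : P →ₗ[R] P' := (π.restrictScalars R) ∘ₗ red ∘ₗ P.subtype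
  let Φ : S ⊗[R] P →ₗ[S] P' := LinearMap.liftBaseChange S ρ
  -- the inverse
  let b : Fin n → P := fun i => q (Pi.single i 1)
  let τ : P' →ₗ[S] S ⊗[R] P :=
    { toFun := fun y => ∑ i, (s y i) • ((1 : S) ⊗ₜ[R] b i)
      map_add' := fun y z => by
        simp only [map_add, Pi.add_apply, add_smul, Finset.sum_add_distrib]
      map_smul' := fun a y => by
        simp only [map_smul, Pi.smul_apply, smul_eq_mul, RingHom.id_apply, Finset.smul_sum,
          mul_smul] }
  have hτΦ : ∀ z, τ (Φ z) = z := by
    intro z
    induction z using TensorProduct.induction_on with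
    | zero => simp
    | tmul a x =>
      have h1 : Φ (a ⊗ₜ[R] x) = a • ρ x := LinearMap.liftBaseChange_tmul S ρ a x
      rw [h1, map_smul]
      have h2 : s (ρ x) = red (x : Fin n → R) := by
        have : s (ρ x) = Matrix.toLin' E' (red (x : Fin n → R)) := by
          rw [hE'lin]
          rfl
        rw [this, Matrix.toLin'_apply, hred, hEfix]
      have h3 : τ (ρ x) = (1 : S) ⊗ₜ[R] x := by
        show ∑ i, (s (ρ x) i) • ((1 : S) ⊗ₜ[R] b i) = _
        rw [h2]
        have h4 : ∀ i, (red (x : Fin n → R) i) • ((1 : S) ⊗ₜ[R] b i) =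
            (1 : S) ⊗ₜ[R] ((x : Fin n → R) i • b i) := by
          intro i
          show (algebraMap R S ((x : Fin n → R) i)) • ((1 : S) ⊗ₜ[R] b i) = _
          rw [algebraMap_smul, TensorProduct.tmul_smul]
        simp only [h4]
        rw [← TensorProduct.tmul_sum]
        congr 1
        have h5 : ∑ i, (x : Fin n → R) i • b i = q (x : Fin n → R) := by
          simp only [b, ← map_smul, ← map_sum]
          congr 1
          ext j
          simp [Finset.sum_apply, Pi.single_apply]
        rw [h5, hq]
      rw [h3, TensorProduct.smul_tmul', smul_eq_mul, mul_one]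
    | add z w hz hw => rw [map_add, map_add, hz, hw]
  have hΦτ : ∀ y, Φ (τ y) = y := by
    intro y
    show Φ (∑ i, (s y i) • ((1 : S) ⊗ₜ[R] b i)) = y
    simp only [map_sum, map_smul]
    have h1 : ∀ i, Φ ((1 : S) ⊗ₜ[R] b i) = π (Matrix.toLin' E' (Pi.single i 1)) := by
      intro i
      rw [LinearMap.liftBaseChange_tmul, one_smul]
      show π (red ((q (Pi.single i 1) : P) : Fin n → R)) = _
      have : ((q (Pi.single i 1) : P) : Fin n → R) = E.mulVec (Pi.single i 1) := rfl
      rw [this, ← hred, Matrix.toLin'_apply]
      congr 2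
      ext j
      simp [red, Pi.single_apply]
    simp only [h1, hE'lin, LinearMap.comp_apply, hπs]
    have h2 : ∑ i, s y i • π (Pi.single i 1) = π (s y) := by
      simp only [← map_smul, ← map_sum]
      congr 1
      ext j
      simp [Finset.sum_apply, Pi.single_apply]
    rw [h2, hπs]
  exact LinearEquiv.ofLinearMap Φ τ (LinearMap.ext hΦτ) (LinearMap.ext hτΦ)

end Fermat.Agent.S25.H310
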